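import Mathlib
import Fermat.Agent.S18.V.Spec

/-!
# Program DS, package (C), row C4-V : the GENERIC coordinate theorem (no power-basis generator)

`A₀` a DVR (uniformiser `ϖ`, `L₀ = Frac A₀`, `k₀ = A₀/ϖ`), `S` a set of integral series
`⊆ A₀((q))`, `F = L₀(incl S) ⊆ L₀((q))`, `F̄ = k₀(res S) ⊆ k₀((q))`, `τ ∈ S` with a pole mod `ϖ`.

* `dscv_gen_adjoin`     : `S18VGen A₀ F`;
* `dscv_exists_lift`    : every element of `F̄` is the reduction of an element of the Gauss ring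
  `s18vO A₀ F` (adjoin induction; the Gauss ring is a valuation ring with maximal ideal `(ϖ)`);
* `dscv_coord_of_red`   : `s18v_coord_of_powerBasis` with `ξ` in the Gauss ring;
* `dscv_coord_generic`  : if `F̄ / k₀(τ̄)` is finite SEPARABLE of degree `≥ [F : L₀(τ)]` then `τ` is
  a good coordinate of `F` (`S18Coord`).  Proof: a primitive element of `F̄ / k₀(τ̄)` lifted to the
  Gauss ring is a power-basis generator in the sense of `S18/V/CoordAbstract.lean`.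
-/

set_option autoImplicit false
set_option linter.unusedSectionVars false
set_option linter.style.haveILetI false
set_option synthInstance.maxHeartbeats 400000

noncomputable section

namespace Fermat.Agent.DS

open ModularCurve IsLocalRing Polynomial IntermediateField Fermat.Agent.S18
open scoped IntermediateField.algebraAdjoinAdjoin

variable {A₀ : Type*} [CommRing A₀] [IsDomain A₀] [IsDiscreteValuationRing A₀]
variable {L₀ : Type*} [Field L₀] [Algebra A₀ L₀] [IsFractionRing A₀ L₀]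
variable {ϖ : A₀}

/-! ### `S18VGen` for a field generated by integral series -/

theorem dscv_gen_adjoin (S : Set (LaurentSeries A₀)) :
    S18VGen A₀ (IntermediateField.adjoin L₀ (s18vIncl A₀ L₀ '' S)) := by
  intro x
  obtain ⟨x, hx⟩ := x
  show ∃ a b : LaurentSeries A₀,
    s18vIncl A₀ L₀ a ∈ IntermediateField.adjoin L₀ (s18vIncl A₀ L₀ '' S) ∧
    s18vIncl A₀ L₀ b ∈ IntermediateField.adjoin L₀ (s18vIncl A₀ L₀ '' S) ∧ b ≠ 0 ∧
      x * s18vIncl A₀ L₀ b = s18vIncl A₀ L₀ a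
  induction hx using IntermediateField.adjoin_induction with
  | mem x hx =>
    obtain ⟨ξ, hξ, rfl⟩ := hx
    refine ⟨ξ, 1, IntermediateField.subset_adjoin _ _ ⟨ξ, hξ, rfl⟩,
      by rw [map_one]; exact one_mem _, one_ne_zero, ?_⟩
    rw [map_one, mul_one]
  | algebraMap c =>
    obtain ⟨a₀, b₀, hb₀, rfl⟩ := IsFractionRing.div_surjective (A := A₀) c
    have hb₀' : b₀ ≠ 0 := nonZeroDivisors.ne_zero hb₀
    refine ⟨HahnSeries.C a₀, HahnSeries.C b₀, s18vg_C_mem _ a₀, s18vg_C_mem _ b₀, ?_, ?_⟩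
    · intro h
      have := congrArg (fun s => HahnSeries.coeff s 0) h
      simp at this
      exact hb₀' this
    · rw [s18vg_incl_C, s18vg_incl_C, ← map_mul, div_mul_cancel₀]
      rw [Ne, map_eq_zero_iff _ (IsFractionRing.injective A₀ L₀)]
      exact hb₀'
  | add x y hx hy hx' hy' =>
    obtain ⟨a, b, ha, hb, hb0, hxab⟩ := hx'
    obtain ⟨c, d, hc, hd, hd0, hycd⟩ := hy'
    refine ⟨a * d + c * b, b * d, ?_, ?_, mul_ne_zero hb0 hd0, ?_⟩
    · rw [map_add, map_mul, map_mul]; exact add_mem (mul_mem ha hd) (mul_mem hc hb)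
    · rw [map_mul]; exact mul_mem hb hd
    · rw [map_add, map_mul, map_mul, map_mul, ← hxab, ← hycd]; ring
  | inv x hx hx' =>
    obtain ⟨a, b, ha, hb, hb0, hxab⟩ := hx'
    by_cases ha0 : a = 0
    · have hx0 : x = 0 := by
        rw [ha0, map_zero] at hxab
        exact (mul_eq_zero.mp hxab).resolve_right (s18vg_incl_ne_zero hb0)
      refine ⟨0, 1, by rw [map_zero]; exact zero_mem _, by rw [map_one]; exact one_mem _,
        one_ne_zero, ?_⟩
      rw [hx0, inv_zero, zero_mul, map_zero]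
    · have hx0 : x ≠ 0 := by
        rintro rfl
        rw [zero_mul] at hxab
        exact s18vg_incl_ne_zero ha0 hxab.symm
      refine ⟨b, a, hb, ha, ha0, ?_⟩
      rw [← hxab, ← mul_assoc, inv_mul_cancel₀ hx0, one_mul]
  | mul x y hx hy hx' hy' =>
    obtain ⟨a, b, ha, hb, hb0, hxab⟩ := hx'
    obtain ⟨c, d, hc, hd, hd0, hycd⟩ := hy'
    refine ⟨a * c, b * d, ?_, ?_, mul_ne_zero hb0 hd0, ?_⟩
    · rw [map_mul]; exact mul_mem ha hc
    · rw [map_mul]; exact mul_mem hb hd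
    · rw [map_mul, map_mul, ← hxab, ← hycd]; ring

/-! ### Lifting the residue field -/

variable [CharZero A₀]

theorem dscv_red_unif (hϖ : Irreducible ϖ) (F : IntermediateField L₀ (LaurentSeries L₀)) :
    s18vcRed F ⟨algebraMap A₀ F ϖ, s18vg_algebraMap_mem F ϖ⟩ = 0 := by
  rw [s18vcRed_incl F _ (HahnSeries.C ϖ) (s18vg_coe_unif F ϖ), s18vg_res_C]
  have : residue A₀ ϖ = 0 := by
    rw [residue_eq_zero_iff, hϖ.maximalIdeal_eq, Ideal.mem_span_singleton]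
  rw [this, map_zero]

/-- every element of `k₀(res S)` is the reduction of an element of the Gauss ring of `L₀(incl S)`. -/
theorem dscv_exists_lift (hϖ : Irreducible ϖ) (S : Set (LaurentSeries A₀))
    (θ : LaurentSeries (ResidueField A₀))
    (hθ : θ ∈ IntermediateField.adjoin (ResidueField A₀) (s18vRes A₀ '' S)) :
    ∃ x : ↥(s18vO A₀ (IntermediateField.adjoin L₀ (s18vIncl A₀ L₀ '' S))),
      s18vcRed (IntermediateField.adjoin L₀ (s18vIncl A₀ L₀ '' S)) x = θ := by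
  set F := IntermediateField.adjoin L₀ (s18vIncl A₀ L₀ '' S) with hFdef
  induction hθ using IntermediateField.adjoin_induction with
  | mem θ hθ =>
    obtain ⟨ξ, hξ, rfl⟩ := hθ
    have hmem : s18vIncl A₀ L₀ ξ ∈ F := IntermediateField.subset_adjoin _ _ ⟨ξ, hξ, rfl⟩
    refine ⟨⟨⟨s18vIncl A₀ L₀ ξ, hmem⟩, ⟨ξ, 1, hmem, by rw [map_one]; exact one_mem _,
      by rw [map_one]; exact one_ne_zero, by rw [map_one, mul_one]⟩⟩, ?_⟩
    exact s18vcRed_incl F _ ξ rfl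
  | algebraMap c =>
    obtain ⟨a, rfl⟩ := residue_surjective (R := A₀) c
    refine ⟨⟨algebraMap A₀ F a, s18vg_algebraMap_mem F a⟩, ?_⟩
    rw [s18vcRed_incl F _ (HahnSeries.C a) (s18vg_coe_unif F a), s18vg_res_C,
      algebraMap_laurentSeries_eq_single]
    rfl
  | add θ₁ θ₂ _ _ h₁ h₂ =>
    obtain ⟨x₁, rfl⟩ := h₁
    obtain ⟨x₂, rfl⟩ := h₂
    exact ⟨x₁ + x₂, map_add _ _ _⟩
  | mul θ₁ θ₂ _ _ h₁ h₂ =>
    obtain ⟨x₁, rfl⟩ := h₁
    obtain ⟨x₂, rfl⟩ := h₂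
    exact ⟨x₁ * x₂, map_mul _ _ _⟩
  | inv θ₁ _ h₁ =>
    obtain ⟨x, rfl⟩ := h₁
    by_cases h0 : s18vcRed F x = 0
    · exact ⟨0, by rw [h0, inv_zero, map_zero]⟩
    · rcases s18v_dvd_or_inv_mem' F hϖ (x : F) x.2 with ⟨y, hy, hxy⟩ | hinv
      · exfalso
        apply h0
        have e : x = ⟨algebraMap A₀ F ϖ, s18vg_algebraMap_mem F ϖ⟩ * ⟨y, hy⟩ := Subtype.ext hxy
        rw [e, map_mul, dscv_red_unif hϖ F, zero_mul]
      · refine ⟨⟨(x : F)⁻¹, hinv⟩, ?_⟩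
        apply eq_inv_of_mul_eq_one_right
        rw [← map_mul]
        have e : x * ⟨(x : F)⁻¹, hinv⟩ = 1 := by
          apply Subtype.ext
          show (x : F) * (x : F)⁻¹ = 1
          refine mul_inv_cancel₀ fun hx0 => h0 ?_
          have : x = 0 := Subtype.ext hx0
          rw [this, map_zero]
        rw [e, map_one]

/-! ### The coordinate theorem with `ξ` in the Gauss ring -/

/-- `s18v_coord_of_powerBasis` with the generator `ξ` in the Gauss ring (same proof). -/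
theorem dscv_coord_of_red (hϖ : Irreducible ϖ)
    (F : IntermediateField L₀ (LaurentSeries L₀)) (hF : S18VGen A₀ F) (t : F)
    (τ : LaurentSeries A₀) (ht : S18VPole F t τ) [FiniteDimensional L₀⟮t⟯ F]
    (ξB : ↥(s18vO A₀ F))
    (hind' : LinearIndependent ↥((ResidueField A₀)⟮s18vRes A₀ τ⟯)
      (fun i : Fin (Module.finrank ↥L₀⟮t⟯ ↥F) => s18vcRed F ξB ^ (i : ℕ)))
    (hsep' : IsSeparable ↥((ResidueField A₀)⟮s18vRes A₀ τ⟯) (s18vcRed F ξB)) :
    S18Coord hϖ F t := by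
  have hC : Prime (C ϖ : A₀[X]) := s18t_prime_C hϖ
  have htr : Transcendental L₀ t := s18v_transcendental' F hϖ t τ ht
  letI algOK : Algebra ↥(s18tLoc A₀ t (C ϖ) hC) ↥L₀⟮t⟯ :=
    (s18tuIncl (L := L₀) t (C ϖ) hC htr).toAlgebra
  haveI tow : IsScalarTower ↥(s18tLoc A₀ t (C ϖ) hC) ↥L₀⟮t⟯ ↥F :=
    IsScalarTower.of_algebraMap_eq fun _ => rfl
  haveI dvr : IsDiscreteValuationRing ↥(s18tLoc A₀ t (C ϖ) hC) :=
    s18tu_isDVR (L := L₀) t (C ϖ) hC htr
  haveI frac : IsFractionRing ↥(s18tLoc A₀ t (C ϖ) hC) ↥L₀⟮t⟯ :=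
    s18tg_isFractionRing_gauss hC t htr
  have hirr : Irreducible (s18tuUnif t (C ϖ) hC) :=
    s18tu_irreducible_unif (L := L₀) t (C ϖ) hC htr
  have hle : ∀ o : ↥(s18tLoc A₀ t (C ϖ) hC),
      algebraMap ↥(s18tLoc A₀ t (C ϖ) hC) ↥F o ∈ s18vO A₀ F := fun o =>
    s18v_loc_le' F hϖ t τ ht o o.2
  have hκ : ∀ o : ↥(s18tLoc A₀ t (C ϖ) hC),
      s18vcRed F ⟨algebraMap ↥(s18tLoc A₀ t (C ϖ) hC) ↥F o, hle o⟩ ∈
        (ResidueField A₀)⟮s18vRes A₀ τ⟯ := by
    intro o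
    obtain ⟨a, b, hb, hab⟩ := o.2
    rw [s18vcRed_eq F _ (eval₂ HahnSeries.C τ a) (eval₂ HahnSeries.C τ b)
      (s18vg_res_eval_ne_zero hϖ τ ht.2 b hb) (by
        rw [← s18vg_coe_aeval F t τ ht.1, ← s18vg_coe_aeval F t τ ht.1, ← hab]
        push_cast
        rfl), s18vg_res_eval, s18vg_res_eval]
    exact div_mem (s18vc_eval₂_mem _ _) (s18vc_eval₂_mem _ _)
  let ι : ↥(s18tLoc A₀ t (C ϖ) hC) →+* ↥(s18vO A₀ F) :=
    { toFun := fun o => ⟨algebraMap ↥(s18tLoc A₀ t (C ϖ) hC) ↥F o, hle o⟩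
      map_one' := rfl
      map_mul' := fun _ _ => rfl
      map_zero' := rfl
      map_add' := fun _ _ => rfl }
  let ρ : ↥(s18tLoc A₀ t (C ϖ) hC) →+* ↥((ResidueField A₀)⟮s18vRes A₀ τ⟯) :=
    RingHom.codRestrict ((s18vcRed F).comp ι) ((ResidueField A₀)⟮s18vRes A₀ τ⟯) hκ
  have hcompat : ∀ o : ↥(s18tLoc A₀ t (C ϖ) hC),
      algebraMap ↥((ResidueField A₀)⟮s18vRes A₀ τ⟯) (LaurentSeries (ResidueField A₀)) (ρ o) =
        s18vcRed F ⟨algebraMap ↥(s18tLoc A₀ t (C ϖ) hC) ↥F o, hle o⟩ := fun o => rfl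
  have hunif : s18vcRed F ⟨algebraMap ↥(s18tLoc A₀ t (C ϖ) hC) ↥F (s18tuUnif t (C ϖ) hC),
      hle (s18tuUnif t (C ϖ) hC)⟩ = 0 := by
    rw [s18vcRed_incl F _ (HahnSeries.C ϖ) (by
      show ((aeval t (C ϖ) : F) : LaurentSeries L₀) = _
      rw [aeval_C, s18vg_coe_unif]), s18vg_res_C]
    have : residue A₀ ϖ = 0 := by
      rw [residue_eq_zero_iff, hϖ.maximalIdeal_eq, Ideal.mem_span_singleton]
    rw [this, map_zero]
  have hval : ∀ x : ↥F, x ∈ s18vO A₀ F ∨ x⁻¹ ∈ s18vO A₀ F := s18v_mem_or_inv_mem' F hϖ hF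
  have hint : s18tIntLoc A₀ t (C ϖ) hC = s18vO A₀ F := by
    ext x
    rw [mem_s18tIntLoc]
    exact s18vc_isIntegral_iff hirr (s18vO A₀ F) hle (s18vcRed F) ρ hunif hcompat ξB hind' hval x
  refine ⟨htr, inferInstance, hint, ?_⟩
  intro x hx
  rw [hint] at hx ⊢
  refine s18vc_selfDual hirr (s18vO A₀ F) hle (s18vcRed F) ρ hunif hcompat ξB hind' hsep' x ?_
  intro y hy
  exact ⟨⟨_, hx y hy⟩, rfl⟩

/-! ### The generic coordinate theorem -/

variable (L₀) in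
/-- the field generated over `L₀` by a set of integral series -/
abbrev dscvF (S : Set (LaurentSeries A₀)) : IntermediateField L₀ (LaurentSeries L₀) :=
  IntermediateField.adjoin L₀ (s18vIncl A₀ L₀ '' S)

/-- the field generated over the residue field by the reductions -/
abbrev dscvFb (S : Set (LaurentSeries A₀)) :
    IntermediateField (ResidueField A₀) (LaurentSeries (ResidueField A₀)) :=
  IntermediateField.adjoin (ResidueField A₀) (s18vRes A₀ '' S)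

variable (L₀) in
/-- a generator as an element of the generic field -/
def dscvT (S : Set (LaurentSeries A₀)) (τ : LaurentSeries A₀) (hτS : τ ∈ S) : dscvF L₀ S :=
  ⟨s18vIncl A₀ L₀ τ, IntermediateField.subset_adjoin _ _ ⟨τ, hτS, rfl⟩⟩

/-- a generator as an element of the special field -/
def dscvTb (S : Set (LaurentSeries A₀)) (τ : LaurentSeries A₀) (hτS : τ ∈ S) : dscvFb S :=
  ⟨s18vRes A₀ τ, IntermediateField.subset_adjoin _ _ ⟨τ, hτS, rfl⟩⟩

/-- ELEMENT FORM of the hypothesis on the special fibre (generic): an element `x` of `F̄ ⊆ k((q))`,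
separable over `k(t)`, whose powers `1, x, …, x^{n-1}` are linearly independent over `k[t]`. -/
def DscvSepEltK (k : Type*) [Field k] (Fb : IntermediateField k (LaurentSeries k))
    (t : LaurentSeries k) (n : ℕ) : Prop :=
  ∃ x : LaurentSeries k, x ∈ Fb ∧ IsSeparable ↥(k⟮t⟯) x ∧
    ∀ c : Fin n → k[X], ∑ i, aeval t (c i) * x ^ (i : ℕ) = 0 → c = 0

/-- ELEMENT FORM of the hypothesis on the special fibre `k₀(res S)`. -/
abbrev DscvSepElt (S : Set (LaurentSeries A₀)) (τ : LaurentSeries A₀) (n : ℕ) : Prop :=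
  DscvSepEltK (ResidueField A₀) (dscvFb S) (s18vRes A₀ τ) n

omit [CharZero A₀] in
theorem DscvSepEltK.mono {k : Type*} [Field k] {Fb : IntermediateField k (LaurentSeries k)}
    {t : LaurentSeries k} {n m : ℕ} (h : DscvSepEltK k Fb t n) (hmn : m ≤ n) :
    DscvSepEltK k Fb t m := by
  obtain ⟨x, hx, hsep, hind⟩ := h
  refine ⟨x, hx, hsep, fun c hc => ?_⟩
  let c' : Fin n → k[X] := fun i => if h : (i : ℕ) < m then c ⟨i, h⟩ else 0
  let g : ℕ → LaurentSeries k := fun i =>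
    if h : i < m then aeval t (c ⟨i, h⟩) * x ^ i else 0
  have e1 : ∑ i : Fin n, aeval t (c' i) * x ^ (i : ℕ) = ∑ i : Fin n, g i := by
    refine Finset.sum_congr rfl fun i _ => ?_
    simp only [c', g]
    split_ifs with h
    · rfl
    · rw [map_zero, zero_mul]
  have e2 : ∑ i : Fin m, aeval t (c i) * x ^ (i : ℕ) = ∑ i : Fin m, g i := by
    refine Finset.sum_congr rfl fun i _ => ?_
    simp only [g]
    rw [dif_pos i.2]
  have hc' : ∑ i, aeval t (c' i) * x ^ (i : ℕ) = 0 := by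
    rw [e1, Fin.sum_univ_eq_sum_range g n, ← hc, e2, Fin.sum_univ_eq_sum_range g m]
    symm
    refine Finset.sum_subset (Finset.range_subset_range.mpr hmn) fun i _ hi => ?_
    simp only [g]
    rw [dif_neg (by simpa using hi)]
  have h0 := hind c' hc'
  funext i
  have := congrFun h0 (Fin.castLE hmn i)
  simpa [c'] using this

omit [CharZero A₀] in
/-- FIELD FORM ⟹ ELEMENT FORM: a primitive element of a finite separable extension. -/
theorem dscv_sepEltK_of_field (k : Type*) [Field k] (Fb : IntermediateField k (LaurentSeries k))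
    (tb : Fb) (hτ : (tb : LaurentSeries k).order < 0) (n : ℕ)
    [FiniteDimensional k⟮tb⟯ Fb] [Algebra.IsSeparable k⟮tb⟯ Fb]
    (hdeg : n ≤ Module.finrank k⟮tb⟯ Fb) :
    DscvSepEltK k Fb (tb : LaurentSeries k) n := by
  obtain ⟨α, hα⟩ := Field.exists_primitive_element k⟮tb⟯ Fb
  have hdegα : (minpoly k⟮tb⟯ α).natDegree = Module.finrank k⟮tb⟯ Fb :=
    (Field.primitive_element_iff_minpoly_natDegree_eq k⟮tb⟯ α).mp hα
  have key : ∀ p : k[X],
      (((aeval (AdjoinSimple.gen k tb) p : k⟮tb⟯) : Fb) : LaurentSeries k) =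
        aeval (tb : LaurentSeries k) p := by
    intro p
    have h1 : ((aeval (AdjoinSimple.gen k tb) p : k⟮tb⟯) : Fb) = aeval tb p :=
      (Polynomial.aeval_algHom_apply (k⟮tb⟯).val (AdjoinSimple.gen k tb) p).symm
    rw [h1]
    exact (Polynomial.aeval_algHom_apply Fb.val tb p).symm
  refine ⟨(α : LaurentSeries k), α.2, ?_, ?_⟩
  · have hsepα : IsSeparable k⟮tb⟯ α := Algebra.IsSeparable.isSeparable k⟮tb⟯ α
    have hmem : ∀ e : k⟮tb⟯, (((e : Fb)) : LaurentSeries k) ∈ k⟮(tb : LaurentSeries k)⟯ := by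
      intro e
      have h1 : (k⟮tb⟯).map Fb.val = k⟮(tb : LaurentSeries k)⟯ := by
        rw [IntermediateField.adjoin_map, Set.image_singleton]
        rfl
      rw [← h1]
      exact ⟨(e : Fb), e.2, rfl⟩
    let φ : k⟮tb⟯ →+* ↥(k⟮(tb : LaurentSeries k)⟯) :=
      RingHom.codRestrict ((Fb.val : Fb →+* LaurentSeries k).comp
        ((k⟮tb⟯).val : k⟮tb⟯ →+* Fb)) (k⟮(tb : LaurentSeries k)⟯) hmem
    have hsep2 : ((minpoly k⟮tb⟯ α).map φ).Separable := Polynomial.Separable.map (f := φ) hsepα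
    have hroot : aeval (α : LaurentSeries k) ((minpoly k⟮tb⟯ α).map φ) = 0 := by
      rw [aeval_def, eval₂_map]
      have e : (algebraMap ↥(k⟮(tb : LaurentSeries k)⟯) (LaurentSeries k)).comp φ =
          (Fb.val : Fb →+* LaurentSeries k).comp (algebraMap k⟮tb⟯ Fb) := rfl
      have e2 : (α : LaurentSeries k) = (Fb.val : Fb →+* LaurentSeries k) α := rfl
      rw [e, e2, ← Polynomial.hom_eval₂, ← aeval_def, minpoly.aeval, map_zero]
    exact hsep2.of_dvd (minpoly.dvd _ _ hroot)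
  · intro c hc
    have hli : LinearIndependent k⟮tb⟯ (fun i : Fin n => α ^ (i : ℕ)) := by
      have h1 := linearIndependent_pow (K := k⟮tb⟯) α
      exact h1.comp (Fin.castLE (hdeg.trans hdegα.ge)) (Fin.castLE_injective _)
    rw [Fintype.linearIndependent_iff] at hli
    have h0 := hli (fun i => aeval (AdjoinSimple.gen k tb) (c i)) (by
      apply Subtype.ext
      rw [ZeroMemClass.coe_zero, ← hc]
      simp only [Algebra.smul_def]
      push_cast
      refine Finset.sum_congr rfl fun i _ => ?_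
      rw [← key]
      rfl)
    funext i
    by_contra hne
    refine Fermat.Agent.S28.keyabs_aeval_ne_zero (tb : LaurentSeries k) hτ (c i) hne ?_
    rw [← key, h0 i]
    rfl

omit [CharZero A₀] in
/-- coefficientwise base change maps `k₀(t₀)` into `k(t)`. -/
theorem dscv_coeffMap_mem_adjoin_simple {k₀ k : Type*} [Field k₀] [Field k] [Algebra k₀ k]
    (t₀ e : LaurentSeries k₀) (he : e ∈ k₀⟮t₀⟯) :
    coeffMap (algebraMap k₀ k) e ∈ k⟮coeffMap (algebraMap k₀ k) t₀⟯ := by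
  induction he using IntermediateField.adjoin_induction with
  | mem x hx =>
    rw [Set.mem_singleton_iff] at hx
    subst hx
    exact IntermediateField.mem_adjoin_simple_self k _
  | algebraMap a =>
    rw [s18vb_emb_algebraMap]
    exact IntermediateField.algebraMap_mem _ _
  | add x y _ _ hx hy => rw [map_add]; exact add_mem hx hy
  | inv x _ hx => rw [map_inv₀]; exact inv_mem hx
  | mul x y _ _ hx hy => rw [map_mul]; exact mul_mem hx hy

omit [CharZero A₀] in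
/-- BASE CHANGE of the element form along a field extension `k₀ ⊆ k` (independence by the basis
trick `s18vd_exists_descent`, separability by mapping the minimal polynomial). -/
theorem dscv_sepEltK_baseChange {k₀ k : Type*} [Field k₀] [Field k] [Algebra k₀ k]
    (Fb₀ : IntermediateField k₀ (LaurentSeries k₀)) (Fb : IntermediateField k (LaurentSeries k))
    (hF : ∀ x ∈ Fb₀, coeffMap (algebraMap k₀ k) x ∈ Fb) (t₀ : LaurentSeries k₀) (n : ℕ)
    (h : DscvSepEltK k₀ Fb₀ t₀ n) :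
    DscvSepEltK k Fb (coeffMap (algebraMap k₀ k) t₀) n := by
  obtain ⟨x₀, hx₀, hsep, hind⟩ := h
  refine ⟨coeffMap (algebraMap k₀ k) x₀, hF x₀ hx₀, ?_, ?_⟩
  · let ψ : ↥(k₀⟮t₀⟯) →+* ↥(k⟮coeffMap (algebraMap k₀ k) t₀⟯) :=
      RingHom.codRestrict ((coeffMap (algebraMap k₀ k)).comp
        (algebraMap ↥(k₀⟮t₀⟯) (LaurentSeries k₀))) (k⟮coeffMap (algebraMap k₀ k) t₀⟯)
        (fun e => dscv_coeffMap_mem_adjoin_simple t₀ (e : LaurentSeries k₀) e.2)
    have hsep2 : ((minpoly ↥(k₀⟮t₀⟯) x₀).map ψ).Separable :=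
      Polynomial.Separable.map (f := ψ) hsep
    have hroot : aeval (coeffMap (algebraMap k₀ k) x₀) ((minpoly ↥(k₀⟮t₀⟯) x₀).map ψ) = 0 := by
      rw [aeval_def, eval₂_map]
      have e : (algebraMap ↥(k⟮coeffMap (algebraMap k₀ k) t₀⟯) (LaurentSeries k)).comp ψ =
          (coeffMap (algebraMap k₀ k)).comp (algebraMap ↥(k₀⟮t₀⟯) (LaurentSeries k₀)) := rfl
      rw [e, ← Polynomial.hom_eval₂, ← aeval_def, minpoly.aeval, map_zero]
    exact hsep2.of_dvd (minpoly.dvd _ _ hroot)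
  · intro c hc
    by_contra hne
    obtain ⟨c', hc'0, hc'⟩ := s18vd_exists_descent (k₀ := k₀) t₀ x₀ n c hne hc
    exact hc'0 (hind c' hc')

omit [CharZero A₀] in
/-- FIELD FORM ⟹ ELEMENT FORM for `k₀(res S)`. -/
theorem dscv_sepElt_of_field (S : Set (LaurentSeries A₀))
    (τ : LaurentSeries A₀) (hτS : τ ∈ S) (hτ : (s18vRes A₀ τ).order < 0) (n : ℕ)
    [FiniteDimensional (ResidueField A₀)⟮dscvTb S τ hτS⟯ (dscvFb S)]
    [Algebra.IsSeparable (ResidueField A₀)⟮dscvTb S τ hτS⟯ (dscvFb S)]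
    (hdeg : n ≤ Module.finrank (ResidueField A₀)⟮dscvTb S τ hτS⟯ (dscvFb S)) :
    DscvSepElt S τ n :=
  dscv_sepEltK_of_field (ResidueField A₀) (dscvFb S) (dscvTb S τ hτS) hτ n hdeg

/-- a power-basis generator in the Gauss ring: the lifted element of `DscvSepElt`. -/
theorem dscv_powerGen_of_elt (hϖ : Irreducible ϖ) (S : Set (LaurentSeries A₀))
    (τ : LaurentSeries A₀) (n : ℕ) (h : DscvSepElt S τ n) :
    ∃ ξB : ↥(s18vO A₀ (dscvF L₀ S)),
      s18vcRed (dscvF L₀ S) ξB ∈ dscvFb S ∧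
      LinearIndependent ↥((ResidueField A₀)⟮s18vRes A₀ τ⟯)
        (fun i : Fin n => s18vcRed (dscvF L₀ S) ξB ^ (i : ℕ)) ∧
      IsSeparable ↥((ResidueField A₀)⟮s18vRes A₀ τ⟯) (s18vcRed (dscvF L₀ S) ξB) := by
  obtain ⟨x, hxmem, hsep, hind⟩ := h
  obtain ⟨ξB, hξB⟩ := dscv_exists_lift (L₀ := L₀) hϖ S x hxmem
  refine ⟨ξB, by rw [hξB]; exact hxmem, ?_, by rw [hξB]; exact hsep⟩
  rw [hξB]
  exact s18vc_linearIndependent_adjoin _ _ _ hind

/-- a power-basis generator in the Gauss ring: a lifted primitive element of the residue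
extension. -/
theorem dscv_exists_powerGen (hϖ : Irreducible ϖ) (S : Set (LaurentSeries A₀))
    (τ : LaurentSeries A₀) (hτS : τ ∈ S) (hτ : (s18vRes A₀ τ).order < 0)
    [FiniteDimensional L₀⟮dscvT L₀ S τ hτS⟯ (dscvF L₀ S)]
    [FiniteDimensional (ResidueField A₀)⟮dscvTb S τ hτS⟯ (dscvFb S)]
    [Algebra.IsSeparable (ResidueField A₀)⟮dscvTb S τ hτS⟯ (dscvFb S)]
    (hdeg : Module.finrank L₀⟮dscvT L₀ S τ hτS⟯ (dscvF L₀ S) ≤
      Module.finrank (ResidueField A₀)⟮dscvTb S τ hτS⟯ (dscvFb S)) :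
    ∃ ξB : ↥(s18vO A₀ (dscvF L₀ S)),
      s18vcRed (dscvF L₀ S) ξB ∈ dscvFb S ∧
      LinearIndependent ↥((ResidueField A₀)⟮s18vRes A₀ τ⟯)
        (fun i : Fin (Module.finrank L₀⟮dscvT L₀ S τ hτS⟯ (dscvF L₀ S)) =>
          s18vcRed (dscvF L₀ S) ξB ^ (i : ℕ)) ∧
      IsSeparable ↥((ResidueField A₀)⟮s18vRes A₀ τ⟯) (s18vcRed (dscvF L₀ S) ξB) :=
  dscv_powerGen_of_elt hϖ S τ _ (dscv_sepElt_of_field S τ hτS hτ _ hdeg)

/-- THE GENERIC COORDINATE THEOREM, ELEMENT FORM. -/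
theorem dscv_coord_generic_elt (hϖ : Irreducible ϖ) (S : Set (LaurentSeries A₀))
    (τ : LaurentSeries A₀) (hτS : τ ∈ S) (hτ : (s18vRes A₀ τ).order < 0)
    [FiniteDimensional L₀⟮dscvT L₀ S τ hτS⟯ (dscvF L₀ S)]
    (h : DscvSepElt S τ (Module.finrank L₀⟮dscvT L₀ S τ hτS⟯ (dscvF L₀ S))) :
    S18Coord hϖ (dscvF L₀ S) (dscvT L₀ S τ hτS) := by
  obtain ⟨ξB, -, hind', hsep'⟩ := dscv_powerGen_of_elt (L₀ := L₀) hϖ S τ _ h
  exact dscv_coord_of_red hϖ (dscvF L₀ S) (dscv_gen_adjoin S) (dscvT L₀ S τ hτS) τ ⟨rfl, hτ⟩ ξB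
    hind' hsep'

/-- THE GENERIC COORDINATE THEOREM: if `k₀(res S) / k₀(τ̄)` is finite separable of degree at least
`[L₀(incl S) : L₀(τ)]`, then `τ` is a good coordinate of `L₀(incl S)`. -/
theorem dscv_coord_generic (hϖ : Irreducible ϖ) (S : Set (LaurentSeries A₀))
    (τ : LaurentSeries A₀) (hτS : τ ∈ S) (hτ : (s18vRes A₀ τ).order < 0)
    [FiniteDimensional L₀⟮dscvT L₀ S τ hτS⟯ (dscvF L₀ S)]
    [FiniteDimensional (ResidueField A₀)⟮dscvTb S τ hτS⟯ (dscvFb S)]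
    [Algebra.IsSeparable (ResidueField A₀)⟮dscvTb S τ hτS⟯ (dscvFb S)]
    (hdeg : Module.finrank L₀⟮dscvT L₀ S τ hτS⟯ (dscvF L₀ S) ≤
      Module.finrank (ResidueField A₀)⟮dscvTb S τ hτS⟯ (dscvFb S)) :
    S18Coord hϖ (dscvF L₀ S) (dscvT L₀ S τ hτS) := by
  obtain ⟨ξB, -, hind', hsep'⟩ := dscv_exists_powerGen (L₀ := L₀) hϖ S τ hτS hτ hdeg
  exact dscv_coord_of_red hϖ (dscvF L₀ S) (dscv_gen_adjoin S) (dscvT L₀ S τ hτS) τ ⟨rfl, hτ⟩ ξB
    hind' hsep'

set_option maxHeartbeats 1600000 in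
/-- the reduction of every element of the Gauss ring lies in `k₀(τ̄, ξ̄)`, `ξ` in the Gauss ring
(= `ggn_red_mem_adjoin` of `G/GN.lean` with `ξ` in the Gauss ring; same proof). -/
theorem dscv_red_mem_adjoin (hϖ : Irreducible ϖ)
    (F : IntermediateField L₀ (LaurentSeries L₀)) (t : F)
    (τ : LaurentSeries A₀) (ht : S18VPole F t τ) [FiniteDimensional L₀⟮t⟯ F]
    (ξB : ↥(s18vO A₀ F))
    (hind' : LinearIndependent ↥((ResidueField A₀)⟮s18vRes A₀ τ⟯)
      (fun i : Fin (Module.finrank ↥L₀⟮t⟯ ↥F) => s18vcRed F ξB ^ (i : ℕ)))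
    (x : ↥(s18vO A₀ F)) :
    s18vcRed F x ∈
      IntermediateField.adjoin (ResidueField A₀) {s18vRes A₀ τ, s18vcRed F ξB} := by
  have hC : Prime (C ϖ : A₀[X]) := s18t_prime_C hϖ
  have htr : Transcendental L₀ t := s18v_transcendental' F hϖ t τ ht
  letI algOK : Algebra ↥(s18tLoc A₀ t (C ϖ) hC) ↥L₀⟮t⟯ :=
    (s18tuIncl (L := L₀) t (C ϖ) hC htr).toAlgebra
  haveI tow : IsScalarTower ↥(s18tLoc A₀ t (C ϖ) hC) ↥L₀⟮t⟯ ↥F :=
    IsScalarTower.of_algebraMap_eq fun _ => rfl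
  haveI dvr : IsDiscreteValuationRing ↥(s18tLoc A₀ t (C ϖ) hC) :=
    s18tu_isDVR (L := L₀) t (C ϖ) hC htr
  haveI frac : IsFractionRing ↥(s18tLoc A₀ t (C ϖ) hC) ↥L₀⟮t⟯ :=
    s18tg_isFractionRing_gauss hC t htr
  have hirr : Irreducible (s18tuUnif t (C ϖ) hC) :=
    s18tu_irreducible_unif (L := L₀) t (C ϖ) hC htr
  have hle : ∀ o : ↥(s18tLoc A₀ t (C ϖ) hC),
      algebraMap ↥(s18tLoc A₀ t (C ϖ) hC) ↥F o ∈ s18vO A₀ F := fun o =>
    s18v_loc_le' F hϖ t τ ht o o.2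
  have hκ : ∀ o : ↥(s18tLoc A₀ t (C ϖ) hC),
      s18vcRed F ⟨algebraMap ↥(s18tLoc A₀ t (C ϖ) hC) ↥F o, hle o⟩ ∈
        (ResidueField A₀)⟮s18vRes A₀ τ⟯ := by
    intro o
    obtain ⟨a, b, hb, hab⟩ := o.2
    rw [s18vcRed_eq F _ (eval₂ HahnSeries.C τ a) (eval₂ HahnSeries.C τ b)
      (s18vg_res_eval_ne_zero hϖ τ ht.2 b hb) (by
        rw [← s18vg_coe_aeval F t τ ht.1, ← s18vg_coe_aeval F t τ ht.1, ← hab]
        push_cast
        rfl), s18vg_res_eval, s18vg_res_eval]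
    exact div_mem (s18vc_eval₂_mem _ _) (s18vc_eval₂_mem _ _)
  let ι : ↥(s18tLoc A₀ t (C ϖ) hC) →+* ↥(s18vO A₀ F) :=
    { toFun := fun o => ⟨algebraMap ↥(s18tLoc A₀ t (C ϖ) hC) ↥F o, hle o⟩
      map_one' := rfl
      map_mul' := fun _ _ => rfl
      map_zero' := rfl
      map_add' := fun _ _ => rfl }
  let ρ : ↥(s18tLoc A₀ t (C ϖ) hC) →+* ↥((ResidueField A₀)⟮s18vRes A₀ τ⟯) :=
    RingHom.codRestrict ((s18vcRed F).comp ι) ((ResidueField A₀)⟮s18vRes A₀ τ⟯) hκ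
  have hcompat : ∀ o : ↥(s18tLoc A₀ t (C ϖ) hC),
      algebraMap ↥((ResidueField A₀)⟮s18vRes A₀ τ⟯) (LaurentSeries (ResidueField A₀)) (ρ o) =
        s18vcRed F ⟨algebraMap ↥(s18tLoc A₀ t (C ϖ) hC) ↥F o, hle o⟩ := fun o => rfl
  have hunif : s18vcRed F ⟨algebraMap ↥(s18tLoc A₀ t (C ϖ) hC) ↥F (s18tuUnif t (C ϖ) hC),
      hle (s18tuUnif t (C ϖ) hC)⟩ = 0 := by
    rw [s18vcRed_incl F _ (HahnSeries.C ϖ) (by
      show ((aeval t (C ϖ) : F) : LaurentSeries L₀) = _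
      rw [aeval_C, s18vg_coe_unif]), s18vg_res_C]
    have : residue A₀ ϖ = 0 := by
      rw [residue_eq_zero_iff, hϖ.maximalIdeal_eq, Ideal.mem_span_singleton]
    rw [this, map_zero]
  have hli := s18vc_linearIndependent hirr (s18vO A₀ F) hle (s18vcRed F) ρ hcompat ξB hind'
  have hrep := s18vc_repr_mem hirr (s18vO A₀ F) hle (s18vcRed F) ρ hunif hcompat ξB hind' hli
    (x : F) x.2
  choose o ho using hrep
  have hx : ((x : ↥(s18vO A₀ F)) : F) =
      ∑ i, algebraMap ↥(s18tLoc A₀ t (C ϖ) hC) ↥F (o i) * ((ξB : ↥(s18vO A₀ F)) : F) ^ (i : ℕ) := by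
    conv_lhs => rw [s18vc_expand (s18vO A₀ F) ξB hli (x : F)]
    refine Finset.sum_congr rfl fun i _ => ?_
    rw [← ho i, ← IsScalarTower.algebraMap_apply]
  have hred := s18vc_red_expansion (s18vO A₀ F) hle (s18vcRed F) ρ hcompat ξB x o hx
  rw [hred]
  refine sum_mem fun i _ => ?_
  rw [Algebra.smul_def]
  refine mul_mem ?_ (pow_mem (IntermediateField.subset_adjoin _ _ (by simp)) _)
  have h1 : (ResidueField A₀)⟮s18vRes A₀ τ⟯ ≤
      IntermediateField.adjoin (ResidueField A₀) {s18vRes A₀ τ, s18vcRed F ξB} :=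
    IntermediateField.adjoin.mono _ _ _ (by simp)
  exact h1 (ρ (o i)).2

/-- THE RESIDUE FIELD OF THE GAUSS RING of `L₀(incl S)` is `k₀(res S)` (under the hypotheses of the
generic coordinate theorem): the reduction of every element of the Gauss ring lies in
`k₀(res S)`. -/
theorem dscv_red_mem_generic (hϖ : Irreducible ϖ) (S : Set (LaurentSeries A₀))
    (τ : LaurentSeries A₀) (hτS : τ ∈ S) (hτ : (s18vRes A₀ τ).order < 0)
    [FiniteDimensional L₀⟮dscvT L₀ S τ hτS⟯ (dscvF L₀ S)]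
    [FiniteDimensional (ResidueField A₀)⟮dscvTb S τ hτS⟯ (dscvFb S)]
    [Algebra.IsSeparable (ResidueField A₀)⟮dscvTb S τ hτS⟯ (dscvFb S)]
    (hdeg : Module.finrank L₀⟮dscvT L₀ S τ hτS⟯ (dscvF L₀ S) ≤
      Module.finrank (ResidueField A₀)⟮dscvTb S τ hτS⟯ (dscvFb S))
    (x : ↥(s18vO A₀ (dscvF L₀ S))) : s18vcRed (dscvF L₀ S) x ∈ dscvFb S := by
  obtain ⟨ξB, hξmem, hind', -⟩ := dscv_exists_powerGen (L₀ := L₀) hϖ S τ hτS hτ hdeg
  have h1 := dscv_red_mem_adjoin hϖ (dscvF L₀ S) (dscvT L₀ S τ hτS) τ ⟨rfl, hτ⟩ ξB hind' x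
  refine (IntermediateField.adjoin_le_iff.mpr ?_) h1
  rintro y (rfl | rfl)
  · exact IntermediateField.subset_adjoin _ _ ⟨τ, hτS, rfl⟩
  · exact hξmem

/-- THE RESIDUE FIELD OF THE GAUSS RING, ELEMENT FORM. -/
theorem dscv_red_mem_generic_elt (hϖ : Irreducible ϖ) (S : Set (LaurentSeries A₀))
    (τ : LaurentSeries A₀) (hτS : τ ∈ S) (hτ : (s18vRes A₀ τ).order < 0)
    [FiniteDimensional L₀⟮dscvT L₀ S τ hτS⟯ (dscvF L₀ S)]
    (h : DscvSepElt S τ (Module.finrank L₀⟮dscvT L₀ S τ hτS⟯ (dscvF L₀ S)))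
    (x : ↥(s18vO A₀ (dscvF L₀ S))) : s18vcRed (dscvF L₀ S) x ∈ dscvFb S := by
  obtain ⟨ξB, hξmem, hind', -⟩ := dscv_powerGen_of_elt (L₀ := L₀) hϖ S τ _ h
  have h1 := dscv_red_mem_adjoin hϖ (dscvF L₀ S) (dscvT L₀ S τ hτS) τ ⟨rfl, hτ⟩ ξB hind' x
  refine (IntermediateField.adjoin_le_iff.mpr ?_) h1
  rintro y (rfl | rfl)
  · exact IntermediateField.subset_adjoin _ _ ⟨τ, hτS, rfl⟩
  · exact hξmem

end Fermat.Agent.DS
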