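import Mathlib
import Fermat.Agent.DS.C.Defs

/-!
# Program DS, package (C), row C4-V : formal facts on the series `X̃_k` and the INTEGRAL cross-ratios

* `dscvAbs M k` : distance of `k : ZMod M` to `0`;
* `dscv_coeff_X_of_lt`, `dscv_coeff_X_abs` : `X̃_k = q^{|k|} + …` for `k ≠ 0`, `2|k| < M`;
* `dscv_isUnit_D` : `X̃_a - X̃_c` is a UNIT of `ℤ((q))` for `a, c ≠ 0`, `a ≠ ±c`;
* `dscvRZ M a b c : ℤ((q))`, `dscvRR R M a b c : R((q))` : the integral cross-ratio; it is compatible
  with every coefficient map (`dscv_coeffMap_RR`) and equals `dscR K M a b c` over a field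
  (`dscv_RR_field`);
* `dscvGenInt R M P` : the integral generators, `coeffMap f '' dscvGenInt R M P = dscGen K M P`
  (`dscv_image_genInt`).
-/

set_option autoImplicit false

noncomputable section

namespace Fermat.Agent.DS

open ModularCurve HahnSeries

/-- distance of `k : ZMod M` to `0`. -/
def dscvAbs (M : ℕ) (k : ZMod M) : ℕ := min k.val (M - k.val)

theorem dscv_coeff_X (M : ℕ) (k : ZMod M) (n : ℕ) :
    PowerSeries.coeff n (dscX M k) = ∑ e ∈ n.divisors,
      ((if ((n / e : ℕ) : ZMod M) = k then (e : ℤ) else 0) +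
        (if ((n / e : ℕ) : ZMod M) = -k then (e : ℤ) else 0)) :=
  PowerSeries.coeff_mk _ _

section

variable (M : ℕ) [NeZero M]

theorem dscv_abs_le_of_cast {k : ZMod M} (hk : k ≠ 0) {d : ℕ}
    (hd : (d : ZMod M) = k ∨ (d : ZMod M) = -k) : dscvAbs M k ≤ d := by
  unfold dscvAbs
  rcases hd with hd | hd
  · have h1 : k.val = d % M := by rw [← hd, ZMod.val_natCast]
    exact (min_le_left _ _).trans (h1 ▸ Nat.mod_le d M)
  · have h1 : (-k).val = d % M := by rw [← hd, ZMod.val_natCast]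
    have h2 : (-k).val = M - k.val := by rw [ZMod.neg_val, if_neg hk]
    exact (min_le_right _ _).trans (h2 ▸ h1 ▸ Nat.mod_le d M)

theorem dscv_abs_pos {k : ZMod M} (hk : k ≠ 0) : 0 < dscvAbs M k := by
  unfold dscvAbs
  have h1 : 0 < k.val := Nat.pos_of_ne_zero fun h => hk ((ZMod.val_eq_zero k).mp h)
  have h2 : k.val < M := ZMod.val_lt k
  exact lt_min h1 (by omega)

theorem dscv_two_abs_le (k : ZMod M) : 2 * dscvAbs M k ≤ M := by
  unfold dscvAbs
  have h2 : k.val < M := ZMod.val_lt k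
  rcases le_total k.val (M - k.val) with h | h
  · rw [min_eq_left h]; omega
  · rw [min_eq_right h]; omega

/-- the coefficients of `X̃_k` below `q^{|k|}` vanish. -/
theorem dscv_coeff_X_of_lt {k : ZMod M} (hk : k ≠ 0) {n : ℕ} (hn : n < dscvAbs M k) :
    PowerSeries.coeff n (dscX M k) = 0 := by
  rw [dscv_coeff_X]
  refine Finset.sum_eq_zero fun e he => ?_
  have hle : n / e ≤ n := Nat.div_le_self n e
  rw [if_neg, if_neg, add_zero]
  · intro h
    have := dscv_abs_le_of_cast M hk (Or.inr h)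
    omega
  · intro h
    have := dscv_abs_le_of_cast M hk (Or.inl h)
    omega

/-- `X̃_k = q^{|k|} + …` when `k ≠ -k`. -/
theorem dscv_coeff_X_abs {k : ZMod M} (hk : k ≠ 0) (h2 : 2 * dscvAbs M k < M) :
    PowerSeries.coeff (dscvAbs M k) (dscX M k) = 1 := by
  have hpos := dscv_abs_pos M hk
  have hkM : k.val < M := ZMod.val_lt k
  have hk0 : 0 < k.val := Nat.pos_of_ne_zero fun h => hk ((ZMod.val_eq_zero k).mp h)
  have hnegval : (-k).val = M - k.val := by rw [ZMod.neg_val, if_neg hk]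
  rw [dscv_coeff_X, Finset.sum_eq_single 1]
  · rw [Nat.div_one]
    unfold dscvAbs at h2 ⊢
    rcases le_total k.val (M - k.val) with h | h
    · rw [min_eq_left h] at h2 ⊢
      have e1 : ((k.val : ℕ) : ZMod M) = k := ZMod.natCast_zmod_val k
      rw [if_pos e1, if_neg, add_zero, Nat.cast_one]
      rw [e1]
      intro hkk
      have := congrArg ZMod.val hkk
      rw [hnegval] at this
      omega
    · rw [min_eq_right h] at h2 ⊢
      have e1 : ((M - k.val : ℕ) : ZMod M) = -k := by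
        rw [← hnegval]; exact ZMod.natCast_zmod_val (-k)
      rw [if_pos e1, if_neg, zero_add, Nat.cast_one]
      rw [e1]
      intro hkk
      have := congrArg ZMod.val hkk
      rw [hnegval] at this
      omega
  · intro e he he1
    have hdvd : e ∣ dscvAbs M k := (Nat.mem_divisors.mp he).1
    have he0 : 0 < e := Nat.pos_of_dvd_of_pos hdvd hpos
    have he2 : 2 ≤ e := by omega
    have hlt : dscvAbs M k / e < dscvAbs M k := Nat.div_lt_self hpos he2
    rw [if_neg, if_neg, add_zero]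
    · intro h
      have := dscv_abs_le_of_cast M hk (Or.inr h)
      omega
    · intro h
      have := dscv_abs_le_of_cast M hk (Or.inl h)
      omega
  · intro h
    exact absurd (Nat.mem_divisors.mpr ⟨one_dvd _, hpos.ne'⟩) h

theorem dscv_abs_ne {a c : ZMod M} (hc : c ≠ 0) (hac : a ≠ c) (hac' : a ≠ -c) :
    dscvAbs M a ≠ dscvAbs M c := by
  have haM : a.val < M := ZMod.val_lt a
  have hcM : c.val < M := ZMod.val_lt c
  have hnc : (-c).val = M - c.val := by rw [ZMod.neg_val, if_neg hc]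
  have h1 : a.val ≠ c.val := fun h => hac (ZMod.val_injective M h)
  have h2 : a.val ≠ M - c.val := fun h => hac' (ZMod.val_injective M (h.trans hnc.symm))
  unfold dscvAbs
  intro h
  rcases le_total a.val (M - a.val) with h3 | h3 <;>
    rcases le_total c.val (M - c.val) with h4 | h4
  · rw [min_eq_left h3, min_eq_left h4] at h; exact h1 h
  · rw [min_eq_left h3, min_eq_right h4] at h; exact h2 h
  · rw [min_eq_right h3, min_eq_left h4] at h; omega
  · rw [min_eq_right h3, min_eq_right h4] at h; omega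

/-- `X̃_a - X̃_c = ± q^{min(|a|,|c|)} + …`. -/
theorem dscv_coeff_D {a c : ZMod M} (ha : a ≠ 0) (hc : c ≠ 0) (hac : a ≠ c) (hac' : a ≠ -c) :
    ∃ m : ℕ, (∀ i < m, PowerSeries.coeff i (dscX M a - dscX M c) = 0) ∧
      IsUnit (PowerSeries.coeff m (dscX M a - dscX M c)) := by
  have hne := dscv_abs_ne M hc hac hac'
  rcases lt_or_gt_of_ne hne with h | h
  · refine ⟨dscvAbs M a, fun i hi => ?_, ?_⟩
    · rw [map_sub, dscv_coeff_X_of_lt M ha hi, dscv_coeff_X_of_lt M hc (hi.trans h), sub_zero]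
    · have h2 : 2 * dscvAbs M a < M := by
        have := dscv_two_abs_le M c
        omega
      rw [map_sub, dscv_coeff_X_abs M ha h2, dscv_coeff_X_of_lt M hc h, sub_zero]
      exact isUnit_one
  · refine ⟨dscvAbs M c, fun i hi => ?_, ?_⟩
    · rw [map_sub, dscv_coeff_X_of_lt M hc hi, dscv_coeff_X_of_lt M ha (hi.trans h), sub_zero]
    · have h2 : 2 * dscvAbs M c < M := by
        have := dscv_two_abs_le M a
        omega
      rw [map_sub, dscv_coeff_X_abs M hc h2, dscv_coeff_X_of_lt M ha h, zero_sub]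
      exact isUnit_one.neg

end

/-- a power series `X^m (u + …)` with `u` a unit is a unit of the ring of Laurent series. -/
theorem dscv_isUnit_of_coeff {R : Type*} [CommRing R] (D : PowerSeries R) (m : ℕ)
    (h0 : ∀ i < m, PowerSeries.coeff i D = 0) (hu : IsUnit (PowerSeries.coeff m D)) :
    IsUnit (HahnSeries.ofPowerSeries ℤ R D) := by
  obtain ⟨U, hU⟩ := PowerSeries.X_pow_dvd_iff.mpr h0
  have hcU : PowerSeries.constantCoeff U = PowerSeries.coeff m D := by
    rw [hU, PowerSeries.coeff_X_pow_mul', if_pos le_rfl, Nat.sub_self,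
      PowerSeries.coeff_zero_eq_constantCoeff]
  have hUu : IsUnit U := PowerSeries.isUnit_iff_constantCoeff.mpr (hcU ▸ hu)
  rw [hU, map_mul]
  refine IsUnit.mul ?_ (hUu.map _)
  rw [map_pow, HahnSeries.ofPowerSeries_X, HahnSeries.single_pow, one_pow]
  refine IsUnit.of_mul_eq_one (HahnSeries.single (-(m • (1 : ℤ))) (1 : R)) ?_
  rw [HahnSeries.single_mul_single, add_neg_cancel, one_mul]
  rfl

/-- `X̃_a - X̃_c` over `ℤ`, as a Laurent series. -/
def dscvD (M : ℕ) (a c : ZMod M) : LaurentSeries ℤ :=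
  HahnSeries.ofPowerSeries ℤ ℤ (dscX M a - dscX M c)

theorem dscv_isUnit_D (M : ℕ) [NeZero M] {a c : ZMod M} (ha : a ≠ 0) (hc : c ≠ 0) (hac : a ≠ c)
    (hac' : a ≠ -c) : IsUnit (dscvD M a c) := by
  obtain ⟨m, h0, hu⟩ := dscv_coeff_D M ha hc hac hac'
  exact dscv_isUnit_of_coeff _ m h0 hu

/-- the integral cross-ratio over `ℤ`. -/
def dscvRZ (M : ℕ) (a b c : ZMod M) : LaurentSeries ℤ :=
  dscvD M a b * Ring.inverse (dscvD M a c)

/-- the integral cross-ratio over a commutative ring `R`. -/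
def dscvRR (R : Type*) [CommRing R] (M : ℕ) (a b c : ZMod M) : LaurentSeries R :=
  coeffMap (Int.castRingHom R) (dscvRZ M a b c)

theorem dscv_coeffMap_RR {R S : Type*} [CommRing R] [CommRing S] (f : R →+* S) (M : ℕ)
    (a b c : ZMod M) : coeffMap f (dscvRR R M a b c) = dscvRR S M a b c := by
  unfold dscvRR
  rw [coeffMap_coeffMap]
  exact coeffMap_congr (RingHom.ext_int _ _) _

theorem dscv_coeffMap_D (K : Type*) [CommRing K] (M : ℕ) (a c : ZMod M) :
    coeffMap (Int.castRingHom K) (dscvD M a c) = dscXR K M a - dscXR K M c := by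
  unfold dscvD dscXR
  rw [coeffMap_ofPowerSeries, map_sub, map_sub]

/-- over a field the integral cross-ratio is the cross-ratio. -/
theorem dscv_RR_field (K : Type*) [Field K] (M : ℕ) [NeZero M] {a b c : ZMod M}
    (ha : a ≠ 0) (hc : c ≠ 0) (hac : a ≠ c) (hac' : a ≠ -c) :
    dscvRR K M a b c = dscR K M a b c := by
  obtain ⟨u, hu⟩ := dscv_isUnit_D M ha hc hac hac'
  unfold dscvRR dscvRZ dscR
  rw [map_mul, dscv_coeffMap_D, ← hu, Ring.inverse_unit, div_eq_mul_inv]
  congr 1
  apply eq_inv_of_mul_eq_one_right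
  rw [← dscv_coeffMap_D, ← hu, ← map_mul, Units.mul_inv, map_one]

theorem dscv_RR_adm (K : Type*) [Field K] (M : ℕ) [NeZero M] {a b c : ZMod M}
    (h : DscAdm M a b c) : dscvRR K M a b c = dscR K M a b c :=
  dscv_RR_field K M h.1 h.2.2.1 h.2.2.2.2.2.1 h.2.2.2.2.2.2.1

/-- the integral generators of the function field of level `(M, P)`. -/
def dscvGenInt (R : Type*) [CommRing R] (M P : ℕ) : Set (LaurentSeries R) :=
  {x | ∃ (d : ℕ) (_ : NeZero d), d ∣ M * P ∧ x = qExpand R d (jqModC R)} ∪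
  {x | ∃ (e : ℕ) (_ : NeZero e) (a b c : ZMod M), e ∣ P ∧ DscAdm M a b c ∧
    x = qExpand R e (dscvRR R M a b c)}

theorem dscv_image_genInt {R : Type*} [CommRing R] (K : Type*) [Field K] (f : R →+* K) (M P : ℕ)
    [NeZero M] : coeffMap f '' dscvGenInt R M P = dscGen K M P := by
  ext x
  constructor
  · rintro ⟨y, (⟨d, hd0, hd, rfl⟩ | ⟨e, he0, a, b, c, he, hadm, rfl⟩), rfl⟩
    · exact Or.inl ⟨d, hd0, hd, by rw [coeffMap_qExpand, coeffMap_jqModC]⟩
    · exact Or.inr ⟨e, he0, a, b, c, he, hadm, by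
        rw [coeffMap_qExpand, dscv_coeffMap_RR, dscv_RR_adm K M hadm]⟩
  · rintro (⟨d, hd0, hd, rfl⟩ | ⟨e, he0, a, b, c, he, hadm, rfl⟩)
    · exact ⟨qExpand R d (jqModC R), Or.inl ⟨d, hd0, hd, rfl⟩, by
        rw [coeffMap_qExpand, coeffMap_jqModC]⟩
    · exact ⟨qExpand R e (dscvRR R M a b c), Or.inr ⟨e, he0, a, b, c, he, hadm, rfl⟩, by
        rw [coeffMap_qExpand, dscv_coeffMap_RR, dscv_RR_adm K M hadm]⟩

/-- over a field the integral generators are the generators. -/
theorem dscv_genInt_field (K : Type*) [Field K] (M P : ℕ) [NeZero M] :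
    dscvGenInt K M P = dscGen K M P := by
  have := dscv_image_genInt (R := K) K (RingHom.id K) M P
  rw [← this]
  ext x
  simp

theorem dscv_fieldC_eq {R : Type*} [CommRing R] (K : Type*) [Field K] (f : R →+* K) (M P : ℕ)
    [NeZero M] :
    dscFieldC K M P = IntermediateField.adjoin K (coeffMap f '' dscvGenInt R M P) := by
  rw [dscv_image_genInt]
  rfl

theorem dscv_jq_mem (K : Type*) [Field K] (M P : ℕ) [NeZero (M * P)] :
    jqModC K ∈ dscFieldC K M P :=
  dsc_full_le K M P (jqModC_mem_full K (M * P))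

end Fermat.Agent.DS
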