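import Mathlib
import Fermat.Agent.DS.C.V.Formal
import Fermat.Agent.DS.C.V.CoordGen

/-!
# Program DS, package (C), row C4-V : `j` is a good coordinate of the field of level `(M, P)`

The `Γ₁` analogue of `S18/V/Spec.lean` (`s18v_coord_j'`).

BLACK BOXES (hypotheses of the theorems, with an abstract degree `d`):
* `DscvDeg0 K M P d`  (rows C1c / C2) : `[F_K(M,P) : K(j)] ≤ d`, `K` of characteristic `0`;
  only ONE field of characteristic `0` (e.g. `ℂ`, or `ℚ̄` in the `dscFieldBar` form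
  `DscvDegBar`) is needed: `dscv_deg0_of_field`, `dscv_deg0_of_bar` transport it to every `K`;
* `DscvIgusa k M P d` (row C3, Igusa) : `F_k(M,P) / k(j)` is finite SEPARABLE of degree `≥ d`.

RESULTS: `dscv_coord_j_of` : `S18Coord hϖ (dscFieldC L₀ M P) j`; `dscv_res_mem_of` : the residue field of
the Gauss ring of `dscFieldC L₀ M P` is `dscFieldC k₀ M P`.
-/

set_option autoImplicit false
set_option linter.unusedSectionVars false
set_option linter.style.haveILetI false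
set_option synthInstance.maxHeartbeats 400000

noncomputable section

namespace Fermat.Agent.DS

open ModularCurve IsLocalRing Polynomial IntermediateField Fermat.Agent.S18

/-- `j` as an element of the field of level `(M, P)`. -/
abbrev dscvJ (K : Type*) [Field K] (M P : ℕ) [NeZero M] [NeZero P] : dscFieldC K M P :=
  ⟨jqModC K, dscv_jq_mem K M P⟩

/-- (BB-deg0) the degree bound in characteristic `0`. -/
def DscvDeg0 (K : Type*) [Field K] (M P : ℕ) [NeZero M] [NeZero P] (d : ℕ) : Prop :=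
  FiniteDimensional K⟮dscvJ K M P⟯ (dscFieldC K M P) ∧
    Module.finrank K⟮dscvJ K M P⟯ (dscFieldC K M P) ≤ d

/-- (BB-Igusa) the special fibre: finite, separable, of degree at least `d`. -/
def DscvIgusa (k : Type*) [Field k] (M P : ℕ) [NeZero M] [NeZero P] (d : ℕ) : Prop :=
  FiniteDimensional k⟮dscvJ k M P⟯ (dscFieldC k M P) ∧
    Algebra.IsSeparable k⟮dscvJ k M P⟯ (dscFieldC k M P) ∧
      d ≤ Module.finrank k⟮dscvJ k M P⟯ (dscFieldC k M P)

/-- (BB-Igusa), ELEMENT FORM (weaker, and all that is used): an element `x` of `F_k(M,P)`, separable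
over `k(j)`, with `1, x, …, x^{d-1}` linearly independent over `k[j]`. -/
def DscvIgusaElt (k : Type*) [Field k] (M P : ℕ) (d : ℕ) : Prop :=
  DscvSepEltK k (dscFieldC k M P) (jqModC k) d

/-- field form ⟹ element form (primitive element). -/
theorem dscv_igusaElt_of_igusa (k : Type*) [Field k] (M P : ℕ) [NeZero M] [NeZero P] (d : ℕ)
    (h : DscvIgusa k M P d) : DscvIgusaElt k M P d := by
  obtain ⟨hfd, hsep, hle⟩ := h
  exact dscv_sepEltK_of_field k (dscFieldC k M P) (dscvJ k M P) (s18vd_order_jq_neg k) d hle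

/-- transport along an equality of intermediate fields -/
theorem dscv_transport {K : Type*} [Field K] {F F' : IntermediateField K (LaurentSeries K)}
    (h : F = F') (t : F) (t' : F') (ht : (t : LaurentSeries K) = t')
    (P : ∀ G : IntermediateField K (LaurentSeries K), G → Prop) (hP : P F t) : P F' t' := by
  subst h
  obtain rfl : t = t' := Subtype.ext ht
  exact hP

section Coord

variable {A₀ : Type*} [CommRing A₀] [IsDomain A₀] [IsDiscreteValuationRing A₀] [CharZero A₀]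
variable {L₀ : Type*} [Field L₀] [Algebra A₀ L₀] [IsFractionRing A₀ L₀]
variable {ϖ : A₀}

theorem dscv_jq_mem_genInt (R : Type*) [CommRing R] (M P : ℕ) : jqModC R ∈ dscvGenInt R M P :=
  Or.inl ⟨1, inferInstance, one_dvd _, (qExpand_one_apply _).symm⟩

/-- (V-gen) the field of level `(M, P)` is generated by integral series. -/
theorem dscv_gen (M P : ℕ) [NeZero M] : S18VGen A₀ (dscFieldC L₀ M P) := by
  rw [dscv_fieldC_eq L₀ (algebraMap A₀ L₀) M P]
  exact dscv_gen_adjoin _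

/-- `j` is integral with a pole. -/
theorem dscv_pole_j (M P : ℕ) [NeZero M] [NeZero P] :
    S18VPole (A₀ := A₀) (dscFieldC L₀ M P) (dscvJ L₀ M P) (jqModC A₀) := by
  refine ⟨(coeffMap_jqModC _).symm, ?_⟩
  have h1 : s18vRes A₀ (jqModC A₀) = jqModC (ResidueField A₀) := coeffMap_jqModC _
  rw [h1]
  exact s18vd_order_jq_neg _

/-- the element form at `(A₀, S = dscvGenInt A₀ M P, τ = j)` from the element form at level `(M, P)`. -/
theorem dscv_sepElt_of_igusaElt (M P : ℕ) [NeZero M] (d : ℕ)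
    (hI : DscvIgusaElt (ResidueField A₀) M P d) :
    DscvSepElt (dscvGenInt A₀ M P) (jqModC A₀) d := by
  have hFb : dscFieldC (ResidueField A₀) M P = dscvFb (dscvGenInt A₀ M P) :=
    dscv_fieldC_eq (ResidueField A₀) (residue A₀) M P
  have h1 : s18vRes A₀ (jqModC A₀) = jqModC (ResidueField A₀) := coeffMap_jqModC _
  unfold DscvIgusaElt at hI
  rw [hFb, ← h1] at hI
  exact hI

/-- (V) `j` IS A GOOD COORDINATE of the field of level `(M, P)`, ELEMENT FORM of Igusa. -/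
theorem dscv_coord_j_of_elt (hϖ : Irreducible ϖ) (M P : ℕ) [NeZero M] [NeZero P] (d : ℕ)
    (h0 : DscvDeg0 L₀ M P d) (hI : DscvIgusaElt (ResidueField A₀) M P d) :
    S18Coord hϖ (dscFieldC L₀ M P) (dscvJ L₀ M P) := by
  obtain ⟨hfd0, hle0⟩ := h0
  have hτS : jqModC A₀ ∈ dscvGenInt A₀ M P := dscv_jq_mem_genInt A₀ M P
  have hF : dscFieldC L₀ M P = dscvF L₀ (dscvGenInt A₀ M P) :=
    dscv_fieldC_eq L₀ (algebraMap A₀ L₀) M P
  have ht : ((dscvJ L₀ M P : dscFieldC L₀ M P) : LaurentSeries L₀) =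
      dscvT L₀ (dscvGenInt A₀ M P) (jqModC A₀) hτS := (coeffMap_jqModC _).symm
  have hpole : (s18vRes A₀ (jqModC A₀)).order < 0 := by
    have h1 : s18vRes A₀ (jqModC A₀) = jqModC (ResidueField A₀) := coeffMap_jqModC _
    rw [h1]
    exact s18vd_order_jq_neg _
  have key0 := dscv_transport hF _ _ ht
    (fun G g => ∃ _ : FiniteDimensional L₀⟮g⟯ G, Module.finrank L₀⟮g⟯ G ≤ d) ⟨hfd0, hle0⟩
  obtain ⟨i1, hle1⟩ := key0
  have hmain := dscv_coord_generic_elt (L₀ := L₀) hϖ (dscvGenInt A₀ M P) (jqModC A₀) hτS hpole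
    ((dscv_sepElt_of_igusaElt M P d hI).mono hle1)
  exact dscv_transport hF.symm _ _ ht.symm (fun G g => S18Coord hϖ G g) hmain

/-- THE RESIDUE FIELD OF THE GAUSS RING of `F_{L₀}(M,P)` is `F_{k₀}(M,P)` (Gauss-ring form),
ELEMENT FORM of Igusa. -/
theorem dscv_red_mem_of_elt (hϖ : Irreducible ϖ) (M P : ℕ) [NeZero M] [NeZero P] (d : ℕ)
    (h0 : DscvDeg0 L₀ M P d) (hI : DscvIgusaElt (ResidueField A₀) M P d)
    (x : ↥(s18vO A₀ (dscFieldC L₀ M P))) :
    s18vcRed (dscFieldC L₀ M P) x ∈ dscFieldC (ResidueField A₀) M P := by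
  obtain ⟨hfd0, hle0⟩ := h0
  have hτS : jqModC A₀ ∈ dscvGenInt A₀ M P := dscv_jq_mem_genInt A₀ M P
  have hF : dscFieldC L₀ M P = dscvF L₀ (dscvGenInt A₀ M P) :=
    dscv_fieldC_eq L₀ (algebraMap A₀ L₀) M P
  have hFb : dscFieldC (ResidueField A₀) M P = dscvFb (dscvGenInt A₀ M P) :=
    dscv_fieldC_eq (ResidueField A₀) (residue A₀) M P
  have ht : ((dscvJ L₀ M P : dscFieldC L₀ M P) : LaurentSeries L₀) =
      dscvT L₀ (dscvGenInt A₀ M P) (jqModC A₀) hτS := (coeffMap_jqModC _).symm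
  have hpole : (s18vRes A₀ (jqModC A₀)).order < 0 := by
    have h1 : s18vRes A₀ (jqModC A₀) = jqModC (ResidueField A₀) := coeffMap_jqModC _
    rw [h1]
    exact s18vd_order_jq_neg _
  have key0 := dscv_transport hF _ _ ht
    (fun G g => ∃ _ : FiniteDimensional L₀⟮g⟯ G, Module.finrank L₀⟮g⟯ G ≤ d) ⟨hfd0, hle0⟩
  obtain ⟨i1, hle1⟩ := key0
  have hmain := dscv_red_mem_generic_elt (L₀ := L₀) hϖ (dscvGenInt A₀ M P) (jqModC A₀) hτS hpole
    ((dscv_sepElt_of_igusaElt M P d hI).mono hle1)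
  rw [hFb]
  revert x
  rw [hF]
  exact hmain

/-- integral-series form (the `Γ₁` analogue of `ggn_res_mem_full`), ELEMENT FORM of Igusa. -/
theorem dscv_res_mem_of_elt (hϖ : Irreducible ϖ) (M P : ℕ) [NeZero M] [NeZero P] (d : ℕ)
    (h0 : DscvDeg0 L₀ M P d) (hI : DscvIgusaElt (ResidueField A₀) M P d)
    (a : LaurentSeries A₀) (ha : s18vIncl A₀ L₀ a ∈ dscFieldC L₀ M P) :
    s18vRes A₀ a ∈ dscFieldC (ResidueField A₀) M P := by
  have h1 := dscv_red_mem_of_elt hϖ M P d h0 hI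
    ⟨⟨s18vIncl A₀ L₀ a, ha⟩, ⟨a, 1, ha, by rw [map_one]; exact one_mem _,
      by rw [map_one]; exact one_ne_zero, by rw [map_one, mul_one]⟩⟩
  rwa [s18vcRed_incl _ _ a rfl] at h1

/-- (V) `j` IS A GOOD COORDINATE of the field of level `(M, P)`, from the two black boxes. -/
theorem dscv_coord_j_of (hϖ : Irreducible ϖ) (M P : ℕ) [NeZero M] [NeZero P] (d : ℕ)
    (h0 : DscvDeg0 L₀ M P d) (hI : DscvIgusa (ResidueField A₀) M P d) :
    S18Coord hϖ (dscFieldC L₀ M P) (dscvJ L₀ M P) :=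
  dscv_coord_j_of_elt hϖ M P d h0 (dscv_igusaElt_of_igusa _ M P d hI)

/-- THE RESIDUE FIELD OF THE GAUSS RING of `F_{L₀}(M,P)` is `F_{k₀}(M,P)` (Gauss-ring form). -/
theorem dscv_red_mem_of (hϖ : Irreducible ϖ) (M P : ℕ) [NeZero M] [NeZero P] (d : ℕ)
    (h0 : DscvDeg0 L₀ M P d) (hI : DscvIgusa (ResidueField A₀) M P d)
    (x : ↥(s18vO A₀ (dscFieldC L₀ M P))) :
    s18vcRed (dscFieldC L₀ M P) x ∈ dscFieldC (ResidueField A₀) M P :=
  dscv_red_mem_of_elt hϖ M P d h0 (dscv_igusaElt_of_igusa _ M P d hI) x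

/-- THE RESIDUE FIELD OF THE GAUSS RING of `F_{L₀}(M,P)` is `F_{k₀}(M,P)` (integral-series form,
the `Γ₁` analogue of `ggn_res_mem_full`). -/
theorem dscv_res_mem_of (hϖ : Irreducible ϖ) (M P : ℕ) [NeZero M] [NeZero P] (d : ℕ)
    (h0 : DscvDeg0 L₀ M P d) (hI : DscvIgusa (ResidueField A₀) M P d)
    (a : LaurentSeries A₀) (ha : s18vIncl A₀ L₀ a ∈ dscFieldC L₀ M P) :
    s18vRes A₀ a ∈ dscFieldC (ResidueField A₀) M P :=
  dscv_res_mem_of_elt hϖ M P d h0 (dscv_igusaElt_of_igusa _ M P d hI) a ha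

end Coord

/-! ### The degree bound in characteristic `0` : one field suffices -/

section Degree

variable (M P : ℕ) [NeZero M]

theorem dscv_genInt_rat : dscvGenInt ℚ M P = dscGen ℚ M P := dscv_genInt_field ℚ M P

/-- coefficientwise base change maps `F_ℚ(M,P)` into `F_K(M,P)`. -/
theorem dscv_emb_mem (K : Type*) [Field K] [CharZero K] (x : LaurentSeries ℚ)
    (hx : x ∈ dscFieldC ℚ M P) : s18vbEmb ℚ K x ∈ dscFieldC K M P := by
  unfold dscFieldC at hx
  induction hx using IntermediateField.adjoin_induction with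
  | mem x hx =>
    apply IntermediateField.subset_adjoin
    rw [← dscv_image_genInt K (algebraMap ℚ K) M P]
    rw [← dscv_genInt_rat] at hx
    exact ⟨x, hx, rfl⟩
  | algebraMap a =>
    rw [s18vb_emb_algebraMap]
    exact IntermediateField.algebraMap_mem _ _
  | add x y _ _ hx hy => rw [map_add]; exact add_mem hx hy
  | inv x _ hx => rw [map_inv₀]; exact inv_mem hx
  | mul x y _ _ hx hy => rw [map_mul]; exact mul_mem hx hy

/-- down: from any field of characteristic `0` to `ℚ`. -/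
theorem dscv_deg0_rat_of_field (K₁ : Type*) [Field K₁] [CharZero K₁] [NeZero P] (d : ℕ)
    (h : DscvDeg0 K₁ M P d) : DscvDeg0 ℚ M P d := by
  obtain ⟨hfd, hle⟩ := h
  have e : (⟨s18vbEmb ℚ K₁ (jqModC ℚ), dscv_emb_mem M P K₁ _ (dscv_jq_mem ℚ M P)⟩ :
      dscFieldC K₁ M P) = dscvJ K₁ M P := Subtype.ext (coeffMap_jqModC _)
  haveI : FiniteDimensional
      K₁⟮(⟨s18vbEmb ℚ K₁ (jqModC ℚ), dscv_emb_mem M P K₁ _ (dscv_jq_mem ℚ M P)⟩ :
        dscFieldC K₁ M P)⟯ (dscFieldC K₁ M P) := by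
    rw [e]; exact hfd
  obtain ⟨h1, h2⟩ := s18vb_finrank_le_of_indep (dscFieldC ℚ M P) (dscFieldC K₁ M P)
    (dscv_emb_mem M P K₁) (jqModC ℚ) (dscv_jq_mem ℚ M P)
  refine ⟨h1, h2.trans ?_⟩
  rw [e]
  exact hle

/-- up: from `ℚ` to every field of characteristic `0`. -/
theorem dscv_deg0_of_rat (K : Type*) [Field K] [CharZero K] [NeZero P] (d : ℕ)
    (h : DscvDeg0 ℚ M P d) : DscvDeg0 K M P d := by
  obtain ⟨hfd, hle⟩ := h
  have hS : dscGen ℚ M P ⊆ dscFieldC ℚ M P := IntermediateField.subset_adjoin _ _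
  have hgen : dscFieldC K M P =
      IntermediateField.adjoin K (s18vbEmb ℚ K '' dscGen ℚ M P) := by
    rw [← dscv_genInt_rat, dscv_image_genInt K (algebraMap ℚ K) M P]
    rfl
  obtain ⟨h1, h2⟩ := s18vb_finrank_le_of_span (dscFieldC ℚ M P) (dscFieldC K M P)
    (dscv_emb_mem M P K) (jqModC ℚ) (dscv_jq_mem ℚ M P) (dscGen ℚ M P) hS hgen
  have e : (⟨s18vbEmb ℚ K (jqModC ℚ), dscv_emb_mem M P K _ (dscv_jq_mem ℚ M P)⟩ :
      dscFieldC K M P) = dscvJ K M P := Subtype.ext (coeffMap_jqModC _)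
  rw [e] at h1 h2
  exact ⟨h1, h2.trans hle⟩

/-- ONE field of characteristic `0` suffices. -/
theorem dscv_deg0_of_field (K₁ : Type*) [Field K₁] [CharZero K₁] [NeZero P] (d : ℕ)
    (h : DscvDeg0 K₁ M P d) (K : Type*) [Field K] [CharZero K] : DscvDeg0 K M P d :=
  dscv_deg0_of_rat M P K d (dscv_deg0_rat_of_field M P K₁ d h)

/-- `j` as an element of the Prelude-style field over `ℚ̄`. -/
def dscvJBar [NeZero P] : dscFieldBar M P :=
  ⟨coeffEmb (AlgebraicClosure ℚ) (jqModC ℚ),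
    coeffEmb_mem_laurentBaseChange (AlgebraicClosure ℚ) (dscv_jq_mem ℚ M P)⟩

/-- (BB-deg0), `ℚ̄`-form on the Prelude-style field `dscFieldBar M P`. -/
def DscvDegBar [NeZero P] (d : ℕ) : Prop :=
  FiniteDimensional (AlgebraicClosure ℚ)⟮dscvJBar M P⟯ (dscFieldBar M P) ∧
    Module.finrank (AlgebraicClosure ℚ)⟮dscvJBar M P⟯ (dscFieldBar M P) ≤ d

theorem dscv_deg0_of_bar [NeZero P] (d : ℕ) (h : DscvDegBar M P d) (K : Type*) [Field K] [CharZero K] :
    DscvDeg0 K M P d := by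
  obtain ⟨hfd, hle⟩ := h
  have hF : ∀ x ∈ dscFieldC ℚ M P, s18vbEmb ℚ (AlgebraicClosure ℚ) x ∈ dscFieldBar M P :=
    fun x hx => coeffEmb_mem_laurentBaseChange _ hx
  haveI : FiniteDimensional
      (AlgebraicClosure ℚ)⟮(⟨s18vbEmb ℚ (AlgebraicClosure ℚ) (jqModC ℚ),
        hF _ (dscv_jq_mem ℚ M P)⟩ : dscFieldBar M P)⟯ (dscFieldBar M P) := hfd
  obtain ⟨h1, h2⟩ := s18vb_finrank_le_of_indep (dscFieldC ℚ M P) (dscFieldBar M P) hF
    (jqModC ℚ) (dscv_jq_mem ℚ M P)
  exact dscv_deg0_of_rat M P K d ⟨h1, h2.trans hle⟩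

/-- the Prelude-style field over `ℚ̄` is the field `dscFieldC ℚ̄ M P`. -/
theorem dscv_fieldBar_eq : dscFieldBar M P = dscFieldC (AlgebraicClosure ℚ) M P := by
  apply le_antisymm
  · refine (IntermediateField.adjoin_le_iff (F := AlgebraicClosure ℚ)
      (S := ⇑(coeffEmb (AlgebraicClosure ℚ)) '' (dscField M P : Set (LaurentSeries ℚ)))).mpr ?_
    rintro _ ⟨x, hx, rfl⟩
    exact dscv_emb_mem M P (AlgebraicClosure ℚ) x hx
  · rw [dscFieldC, IntermediateField.adjoin_le_iff,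
      ← dscv_image_genInt (AlgebraicClosure ℚ) (algebraMap ℚ (AlgebraicClosure ℚ)) M P,
      dscv_genInt_rat]
    rintro _ ⟨x, hx, rfl⟩
    exact coeffEmb_mem_laurentBaseChange _ (IntermediateField.subset_adjoin _ _ hx)

end Degree

end Fermat.Agent.DS
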