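import Mathlib
import Fermat.Agent.DS.C.V.Main
import Fermat.Agent.S18.Core.Descend

/-!
# Program DS, package (C), row C4-V : ONE field of characteristic `ℓ` suffices for (BB-Igusa)

* `dscvd_isSeparable_down`, `dscvd_algebra_isSeparable_down` (generic, on the `S18/V/DegreeUp` set-up):
  separability of `F_L / L(j)` descends to `F_K / K(j)` along a field extension `K ⊆ L`
  (linear disjointness: `s18vb_indep`);
* `dscvd_igusa_down`  : `DscvIgusa k M P d → DscvIgusa k₀ M P d` for `k₀ ⊆ k`;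
* `dscvd_igusaElt_up` : `DscvIgusaElt k₀ M P d → DscvIgusaElt k M P d` for `k₀ ⊆ k`;
* `dscvd_igusaElt_of_char` : from ONE field `k₁` of characteristic `ℓ` (e.g. `k₁ = 𝔽̄_ℓ`, field form)
  to EVERY field `k` of characteristic `ℓ` (element form), through `𝔽_ℓ`.
-/

set_option autoImplicit false
set_option linter.unusedSectionVars false
set_option linter.style.haveILetI false
set_option synthInstance.maxHeartbeats 400000

noncomputable section

namespace Fermat.Agent.DS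

open ModularCurve IsLocalRing Polynomial IntermediateField Fermat.Agent.S18

section SepDown

variable {K L : Type*} [Field K] [Field L] [Algebra K L]
variable (FK : IntermediateField K (LaurentSeries K)) (FL : IntermediateField L (LaurentSeries L))
variable (hF : ∀ x ∈ FK, s18vbEmb K L x ∈ FL)
variable (j : LaurentSeries K) (hj : j ∈ FK)

/-- the field homomorphism `K(j) → L(j)`. -/
def dscvdBase : K⟮(⟨j, hj⟩ : FK)⟯ →+* L⟮(⟨s18vbEmb K L j, hF j hj⟩ : FL)⟯ :=
  ((s18vbRes FK FL hF).comp (algebraMap K⟮(⟨j, hj⟩ : FK)⟯ FK)).codRestrict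
    L⟮(⟨s18vbEmb K L j, hF j hj⟩ : FL)⟯ (fun c => s18vb_res_mem FK FL hF j hj c c.2)

theorem dscvd_base_comp :
    (algebraMap L⟮(⟨s18vbEmb K L j, hF j hj⟩ : FL)⟯ FL).comp (dscvdBase FK FL hF j hj) =
      (s18vbRes FK FL hF).comp (algebraMap K⟮(⟨j, hj⟩ : FK)⟯ FK) := rfl

/-- SEPARABILITY GOES DOWN (element form). -/
theorem dscvd_isSeparable_down (x : FK) (hint : IsIntegral K⟮(⟨j, hj⟩ : FK)⟯ x)
    (hsep : IsSeparable L⟮(⟨s18vbEmb K L j, hF j hj⟩ : FL)⟯ (s18vbRes FK FL hF x)) :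
    IsSeparable K⟮(⟨j, hj⟩ : FK)⟯ x := by
  set f := minpoly K⟮(⟨j, hj⟩ : FK)⟯ x with hf
  set y : FL := s18vbRes FK FL hF x with hy
  set ε₀ := dscvdBase FK FL hF j hj with hε₀
  have hfmonic : f.Monic := minpoly.monic hint
  have hroot : aeval y (f.map ε₀) = 0 := by
    rw [aeval_def, eval₂_map, dscvd_base_comp, hy, ← Polynomial.hom_eval₂, ← aeval_def, hf,
      minpoly.aeval, map_zero]
  have hyint : IsIntegral L⟮(⟨s18vbEmb K L j, hF j hj⟩ : FL)⟯ y :=
    ⟨f.map ε₀, hfmonic.map ε₀, hroot⟩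
  set g := minpoly L⟮(⟨s18vbEmb K L j, hF j hj⟩ : FL)⟯ y with hg
  have hdvd : g ∣ f.map ε₀ := minpoly.dvd _ _ hroot
  -- the powers of `y` are independent
  have hind := s18vb_indep FK FL hF j hj (fun i : Fin f.natDegree => x ^ (i : ℕ))
    (linearIndependent_pow (K := K⟮(⟨j, hj⟩ : FK)⟯) x)
  have hind' : LinearIndependent L⟮(⟨s18vbEmb K L j, hF j hj⟩ : FL)⟯
      (fun i : Fin f.natDegree => y ^ (i : ℕ)) := by
    have e : (fun i : Fin f.natDegree => y ^ (i : ℕ)) =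
        fun i : Fin f.natDegree => s18vbRes FK FL hF (x ^ (i : ℕ)) :=
      funext fun i => (map_pow (s18vbRes FK FL hF) x i).symm
    rw [e]
    exact hind
  have hdeg : f.natDegree ≤ g.natDegree := by
    by_contra hlt
    push Not at hlt
    have h0 : ∀ i : Fin f.natDegree, g.coeff i = 0 := by
      refine Fintype.linearIndependent_iff.mp hind' (fun i => g.coeff i) ?_
      rw [Fin.sum_univ_eq_sum_range (fun i => g.coeff i • y ^ i) f.natDegree,
        ← Polynomial.aeval_eq_sum_range' hlt, hg, minpoly.aeval]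
    apply minpoly.ne_zero hyint
    rw [← hg]
    refine Polynomial.ext fun i => ?_
    rw [coeff_zero]
    by_cases hi : i < f.natDegree
    · exact h0 ⟨i, hi⟩
    · exact coeff_eq_zero_of_natDegree_lt (lt_of_lt_of_le hlt (not_lt.mp hi))
  have heq : f.map ε₀ = g :=
    Polynomial.eq_of_monic_of_dvd_of_natDegree_le (minpoly.monic hyint) (hfmonic.map ε₀) hdvd
      (by rw [hfmonic.natDegree_map]; exact hdeg)
  have hsep' : (f.map ε₀).Separable := by
    rw [heq]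
    exact hsep
  exact (Polynomial.separable_map ε₀).mp hsep'

/-- SEPARABILITY GOES DOWN (field form). -/
theorem dscvd_algebra_isSeparable_down [FiniteDimensional K⟮(⟨j, hj⟩ : FK)⟯ FK]
    [Algebra.IsSeparable L⟮(⟨s18vbEmb K L j, hF j hj⟩ : FL)⟯ FL] :
    Algebra.IsSeparable K⟮(⟨j, hj⟩ : FK)⟯ FK :=
  ⟨fun x => dscvd_isSeparable_down FK FL hF j hj x (Algebra.IsIntegral.isIntegral x)
    (Algebra.IsSeparable.isSeparable _ _)⟩

end SepDown

section Level

variable {k₀ k : Type*} [Field k₀] [Field k] [Algebra k₀ k]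

/-- base change of the function field of level `(M, P)` along a field extension. -/
theorem dscvd_emb_mem (M P : ℕ) [NeZero M] (x : LaurentSeries k₀)
    (hx : x ∈ dscFieldC k₀ M P) : s18vbEmb k₀ k x ∈ dscFieldC k M P := by
  unfold dscFieldC at hx
  induction hx using IntermediateField.adjoin_induction with
  | mem x hx =>
    apply IntermediateField.subset_adjoin
    rw [← dscv_image_genInt k (algebraMap k₀ k) M P]
    rw [← dscv_genInt_field] at hx
    exact ⟨x, hx, rfl⟩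
  | algebraMap a =>
    rw [s18vb_emb_algebraMap]
    exact IntermediateField.algebraMap_mem _ _
  | add x y _ _ hx hy => rw [map_add]; exact add_mem hx hy
  | inv x _ hx => rw [map_inv₀]; exact inv_mem hx
  | mul x y _ _ hx hy => rw [map_mul]; exact mul_mem hx hy

variable (k₀ k) in
/-- (BB-Igusa) GOES DOWN along a field extension `k₀ ⊆ k` (field form). -/
theorem dscvd_igusa_down (M P : ℕ) [NeZero M] [NeZero P] (d : ℕ)
    (h : DscvIgusa k M P d) : DscvIgusa k₀ M P d := by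
  obtain ⟨hfd, hsep, hle⟩ := h
  have e : (⟨s18vbEmb k₀ k (jqModC k₀), dscvd_emb_mem M P _ (dscv_jq_mem k₀ M P)⟩ :
      dscFieldC k M P) = dscvJ k M P := Subtype.ext (coeffMap_jqModC _)
  haveI i1 : FiniteDimensional
      k⟮(⟨s18vbEmb k₀ k (jqModC k₀), dscvd_emb_mem M P _ (dscv_jq_mem k₀ M P)⟩ :
        dscFieldC k M P)⟯ (dscFieldC k M P) := by
    rw [e]; exact hfd
  haveI i2 : Algebra.IsSeparable
      k⟮(⟨s18vbEmb k₀ k (jqModC k₀), dscvd_emb_mem M P _ (dscv_jq_mem k₀ M P)⟩ :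
        dscFieldC k M P)⟯ (dscFieldC k M P) := by
    rw [e]; exact hsep
  obtain ⟨h1, h2⟩ := s18vb_finrank_le_of_indep (dscFieldC k₀ M P) (dscFieldC k M P)
    (dscvd_emb_mem M P) (jqModC k₀) (dscv_jq_mem k₀ M P)
  haveI := h1
  have hS : dscGen k₀ M P ⊆ dscFieldC k₀ M P := IntermediateField.subset_adjoin _ _
  have hgen : dscFieldC k M P =
      IntermediateField.adjoin k (s18vbEmb k₀ k '' dscGen k₀ M P) := by
    rw [← dscv_genInt_field, dscv_image_genInt k (algebraMap k₀ k) M P]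
    rfl
  obtain ⟨h3, h4⟩ := s18vb_finrank_le_of_span (dscFieldC k₀ M P) (dscFieldC k M P)
    (dscvd_emb_mem M P) (jqModC k₀) (dscv_jq_mem k₀ M P) (dscGen k₀ M P) hS hgen
  refine ⟨h1, dscvd_algebra_isSeparable_down (dscFieldC k₀ M P) (dscFieldC k M P)
    (dscvd_emb_mem M P) (jqModC k₀) (dscv_jq_mem k₀ M P), ?_⟩
  refine le_trans ?_ h4
  rw [e]
  exact hle

variable (k₀ k) in
/-- (BB-Igusa), element form, GOES UP along a field extension `k₀ ⊆ k`. -/
theorem dscvd_igusaElt_up (M P : ℕ) [NeZero M] (d : ℕ)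
    (h : DscvIgusaElt k₀ M P d) : DscvIgusaElt k M P d := by
  have h1 := dscv_sepEltK_baseChange (dscFieldC k₀ M P) (dscFieldC k M P)
    (dscvd_emb_mem M P) (jqModC k₀) d h
  rw [coeffMap_jqModC] at h1
  exact h1

/-- ONE FIELD OF CHARACTERISTIC `ℓ` SUFFICES: (BB-Igusa) in field form over one field `k₁` of
characteristic `ℓ` gives the element form over every field `k` of characteristic `ℓ`. -/
theorem dscvd_igusaElt_of_char {ℓ : ℕ} [Fact ℓ.Prime] (k₁ : Type*) [Field k₁] [CharP k₁ ℓ]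
    (M P : ℕ) [NeZero M] [NeZero P] (d : ℕ) (h : DscvIgusa k₁ M P d)
    (k' : Type*) [Field k'] [CharP k' ℓ] : DscvIgusaElt k' M P d := by
  letI : Algebra (ZMod ℓ) k₁ := ZMod.algebra k₁ ℓ
  letI : Algebra (ZMod ℓ) k' := ZMod.algebra k' ℓ
  exact dscvd_igusaElt_up (ZMod ℓ) k' M P d
    (dscv_igusaElt_of_igusa (ZMod ℓ) M P d (dscvd_igusa_down (ZMod ℓ) k₁ M P d h))

end Level

/-! ### The exports of V′ from the two black boxes in their NATURAL form

`h0 : DscvDegBar M P d` (the degree over `ℚ̄`, rows C1c / C2) and `hI : DscvIgusa k₁ M P d` for ONE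
field `k₁` of characteristic `ℓ` (row C3, e.g. `k₁ = kBar ℓ`). -/

section Exports

variable {A₀ : Type*} [CommRing A₀] [IsDomain A₀] [IsDiscreteValuationRing A₀] [CharZero A₀]
variable {L₀ : Type*} [Field L₀] [Algebra A₀ L₀] [IsFractionRing A₀ L₀]
variable {ϖ : A₀}

/-- the two black boxes at `(L₀, k₀)` from the two black boxes at `(ℚ̄, k₁)`. -/
theorem dscvd_inputs (hϖ : Irreducible ϖ) {ℓ : ℕ} [Fact ℓ.Prime]
    (hℓ : (ℓ : A₀) ∈ maximalIdeal A₀) (M P : ℕ) [NeZero M] [NeZero P] (d : ℕ)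
    (h0 : DscvDegBar M P d) (k₁ : Type*) [Field k₁] [CharP k₁ ℓ] (hI : DscvIgusa k₁ M P d) :
    DscvDeg0 L₀ M P d ∧ DscvIgusaElt (ResidueField A₀) M P d := by
  haveI : CharZero L₀ := charZero_of_injective_algebraMap (IsFractionRing.injective A₀ L₀)
  haveI : CharP (ResidueField A₀) ℓ := s18v_charP hϖ hℓ
  exact ⟨dscv_deg0_of_bar M P d h0 L₀, dscvd_igusaElt_of_char k₁ M P d hI (ResidueField A₀)⟩

/-- (V1) `j` is a good coordinate of `dscFieldC L₀ M P`. -/
theorem dscvd_coord_j (hϖ : Irreducible ϖ) {ℓ : ℕ} [Fact ℓ.Prime]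
    (hℓ : (ℓ : A₀) ∈ maximalIdeal A₀) (M P : ℕ) [NeZero M] [NeZero P] (d : ℕ)
    (h0 : DscvDegBar M P d) (k₁ : Type*) [Field k₁] [CharP k₁ ℓ] (hI : DscvIgusa k₁ M P d) :
    S18Coord hϖ (dscFieldC L₀ M P) ⟨jqModC L₀, dscv_jq_mem L₀ M P⟩ := by
  obtain ⟨h0', hI'⟩ := dscvd_inputs (L₀ := L₀) hϖ hℓ M P d h0 k₁ hI
  exact dscv_coord_j_of_elt hϖ M P d h0' hI'

/-- (V-res) the residue field of the Gauss valuation of `dscFieldC L₀ M P` is
`dscFieldC k₀ M P`. -/
theorem dscvd_res_mem (hϖ : Irreducible ϖ) {ℓ : ℕ} [Fact ℓ.Prime]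
    (hℓ : (ℓ : A₀) ∈ maximalIdeal A₀) (M P : ℕ) [NeZero M] [NeZero P] (d : ℕ)
    (h0 : DscvDegBar M P d) (k₁ : Type*) [Field k₁] [CharP k₁ ℓ] (hI : DscvIgusa k₁ M P d)
    (a : LaurentSeries A₀) (ha : s18vIncl A₀ L₀ a ∈ dscFieldC L₀ M P) :
    s18vRes A₀ a ∈ dscFieldC (ResidueField A₀) M P := by
  obtain ⟨h0', hI'⟩ := dscvd_inputs (L₀ := L₀) hϖ hℓ M P d h0 k₁ hI
  exact dscv_res_mem_of_elt hϖ M P d h0' hI' a ha

/-- (V-red) the same for every element of the Gauss ring. -/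
theorem dscvd_red_mem (hϖ : Irreducible ϖ) {ℓ : ℕ} [Fact ℓ.Prime]
    (hℓ : (ℓ : A₀) ∈ maximalIdeal A₀) (M P : ℕ) [NeZero M] [NeZero P] (d : ℕ)
    (h0 : DscvDegBar M P d) (k₁ : Type*) [Field k₁] [CharP k₁ ℓ] (hI : DscvIgusa k₁ M P d)
    (x : ↥(s18vO A₀ (dscFieldC L₀ M P))) :
    s18vcRed (dscFieldC L₀ M P) x ∈ dscFieldC (ResidueField A₀) M P := by
  obtain ⟨h0', hI'⟩ := dscvd_inputs (L₀ := L₀) hϖ hℓ M P d h0 k₁ hI
  exact dscv_red_mem_of_elt hϖ M P d h0' hI' x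

end Exports

end Fermat.Agent.DS
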