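import Mathlib
import Fermat.Agent.DS.C.V.Main
import Fermat.Agent.S28.Basic
import Fermat.Agent.DS.C.Br.Level
import Fermat.Agent.DS.C.Igusa.Inst

/-!
# Program DS, package (C), row C4-V : THE INPUTS OF V′ (HUB, STUB-FREE)

ONE statement, at the `X₁`-type levels `(M, 1)`, `6 ≤ M` (design of record 2192 / 2213 / 2237):
there is a degree `d` with
* (LEVEL, rows C1c / C2) `[F_ℚ̄(M,1) : ℚ̄(j)] ≤ d` with `d = (dscbrGamma M).index`
  (`dscbr_finiteDimensional_bar`, `dscbr_finrank_bar` of `Br/Level.lean`);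
* (IGUSA, row C3) for every prime `ℓ ∤ M` the extension `F_{kBar ℓ}(M,1) / kBar ℓ (j)` is finite
  SEPARABLE of degree `≥ d` (`dscig_igusa` of `Igusa/Inst.lean`).

This file is the hub importing the real producers; it contains no black box.
-/

set_option autoImplicit false

noncomputable section

namespace Fermat.Agent.DS

open ModularCurve IntermediateField Fermat.Agent.S28

/-- (BB-deg0) + (BB-Igusa) at level `(M, 1)`. -/
theorem dscv_inputs_one (M : ℕ) [NeZero M] (hM : 6 ≤ M) :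
    ∃ d : ℕ, DscvDegBar M 1 d ∧
      ∀ (ℓ : ℕ) [Fact ℓ.Prime], ¬ ℓ ∣ M → DscvIgusa (kBar ℓ) M 1 d :=
  ⟨(dscbrGamma M).index, ⟨dscbr_finiteDimensional_bar M, (dscbr_finrank_bar M hM).le⟩,
    fun _ _ h => dscig_igusa M hM h⟩

end Fermat.Agent.DS
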