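import Mathlib
import Fermat.Agent.DS.C.V.Main
import Fermat.Agent.DS.C.V.Descent
import Fermat.Agent.DS.C.V.Inputs

/-!
# Program DS, package (C), row C4-V : EXPORTS in the shape consumed by C4 (helper6) and GN (helper14)

At the `X₁`-type levels `(M, 1)`, `6 ≤ M`, `ℓ ∤ M`:
* `dscv_coord_j` : `j` is a good coordinate of `dscFieldC L₀ M 1`;
* `dscv_res_mem` : the reduction of an integral series of `dscFieldC L₀ M 1` lies in
  `dscFieldC k₀ M 1`;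
* `dscv_red_mem` : the same for every element of the Gauss ring.

(The versions for a general level `(M, P)` from explicit hypotheses are `dscvd_coord_j`,
`dscvd_res_mem`, `dscvd_red_mem` of `V/Descent.lean`.)
-/

set_option autoImplicit false
set_option linter.unusedSectionVars false
set_option synthInstance.maxHeartbeats 400000

noncomputable section

namespace Fermat.Agent.DS

open ModularCurve IsLocalRing Polynomial IntermediateField Fermat.Agent.S18 Fermat.Agent.S28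

variable {A₀ : Type*} [CommRing A₀] [IsDomain A₀] [IsDiscreteValuationRing A₀] [CharZero A₀]
variable {L₀ : Type*} [Field L₀] [Algebra A₀ L₀] [IsFractionRing A₀ L₀]
variable {ϖ : A₀}

/-- THE TWO BLACK BOXES OF V′ at a GENERAL level `(M, P)` and the prime `ℓ`, bundled (for consumers
written for a general level: carry `hin : DscvInputs M P ℓ` and discharge it at `P = 1` by
`dscv_inputs_of_one`). -/
def DscvInputs (M P ℓ : ℕ) [NeZero M] [NeZero P] [Fact ℓ.Prime] : Prop :=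
  ∃ d : ℕ, DscvDegBar M P d ∧ DscvIgusa (kBar ℓ) M P d

theorem dscv_inputs_of_one (M : ℕ) [NeZero M] (hM : 6 ≤ M) (ℓ : ℕ) [Fact ℓ.Prime]
    (hℓM : ¬ ℓ ∣ M) : DscvInputs M 1 ℓ := by
  obtain ⟨d, h0, hI⟩ := dscv_inputs_one M hM
  exact ⟨d, h0, hI ℓ hℓM⟩

/-- (V1), general level, from the bundled black boxes. -/
theorem dscv_coord_j_of_inputs (hϖ : Irreducible ϖ) {ℓ : ℕ} [Fact ℓ.Prime]
    (hℓ : (ℓ : A₀) ∈ maximalIdeal A₀) (M P : ℕ) [NeZero M] [NeZero P] (hin : DscvInputs M P ℓ) :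
    S18Coord hϖ (dscFieldC L₀ M P) ⟨jqModC L₀, dscv_jq_mem L₀ M P⟩ := by
  obtain ⟨d, h0, hI⟩ := hin
  exact dscvd_coord_j hϖ hℓ M P d h0 (kBar ℓ) hI

/-- (V-res), general level, from the bundled black boxes. -/
theorem dscv_res_mem_of_inputs (hϖ : Irreducible ϖ) {ℓ : ℕ} [Fact ℓ.Prime]
    (hℓ : (ℓ : A₀) ∈ maximalIdeal A₀) (M P : ℕ) [NeZero M] [NeZero P] (hin : DscvInputs M P ℓ)
    (a : LaurentSeries A₀) (ha : s18vIncl A₀ L₀ a ∈ dscFieldC L₀ M P) :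
    s18vRes A₀ a ∈ dscFieldC (ResidueField A₀) M P := by
  obtain ⟨d, h0, hI⟩ := hin
  exact dscvd_res_mem hϖ hℓ M P d h0 (kBar ℓ) hI a ha

/-- (V-red), general level, from the bundled black boxes. -/
theorem dscv_red_mem_of_inputs (hϖ : Irreducible ϖ) {ℓ : ℕ} [Fact ℓ.Prime]
    (hℓ : (ℓ : A₀) ∈ maximalIdeal A₀) (M P : ℕ) [NeZero M] [NeZero P] (hin : DscvInputs M P ℓ)
    (x : ↥(s18vO A₀ (dscFieldC L₀ M P))) :
    s18vcRed (dscFieldC L₀ M P) x ∈ dscFieldC (ResidueField A₀) M P := by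
  obtain ⟨d, h0, hI⟩ := hin
  exact dscvd_red_mem hϖ hℓ M P d h0 (kBar ℓ) hI x

/-- (V1) `j` is a good coordinate of `dscFieldC L₀ M 1` when `ℓ ∤ M`, `6 ≤ M`. -/
theorem dscv_coord_j (hϖ : Irreducible ϖ) {ℓ : ℕ} [Fact ℓ.Prime]
    (hℓ : (ℓ : A₀) ∈ maximalIdeal A₀) (M : ℕ) [NeZero M] (hM : 6 ≤ M) (hℓM : ¬ ℓ ∣ M) :
    S18Coord hϖ (dscFieldC L₀ M 1) ⟨jqModC L₀, dscv_jq_mem L₀ M 1⟩ := by
  obtain ⟨d, h0, hI⟩ := dscv_inputs_one M hM
  exact dscvd_coord_j hϖ hℓ M 1 d h0 (kBar ℓ) (hI ℓ hℓM)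

/-- (V-res) the residue field of the Gauss valuation of `dscFieldC L₀ M 1` is
`dscFieldC k₀ M 1` (`ℓ ∤ M`, `6 ≤ M`). -/
theorem dscv_res_mem (hϖ : Irreducible ϖ) {ℓ : ℕ} [Fact ℓ.Prime]
    (hℓ : (ℓ : A₀) ∈ maximalIdeal A₀) (M : ℕ) [NeZero M] (hM : 6 ≤ M) (hℓM : ¬ ℓ ∣ M)
    (a : LaurentSeries A₀) (ha : s18vIncl A₀ L₀ a ∈ dscFieldC L₀ M 1) :
    s18vRes A₀ a ∈ dscFieldC (ResidueField A₀) M 1 := by
  obtain ⟨d, h0, hI⟩ := dscv_inputs_one M hM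
  exact dscvd_res_mem hϖ hℓ M 1 d h0 (kBar ℓ) (hI ℓ hℓM) a ha

/-- (V-red) the same for every element of the Gauss ring. -/
theorem dscv_red_mem (hϖ : Irreducible ϖ) {ℓ : ℕ} [Fact ℓ.Prime]
    (hℓ : (ℓ : A₀) ∈ maximalIdeal A₀) (M : ℕ) [NeZero M] (hM : 6 ≤ M) (hℓM : ¬ ℓ ∣ M)
    (x : ↥(s18vO A₀ (dscFieldC L₀ M 1))) :
    s18vcRed (dscFieldC L₀ M 1) x ∈ dscFieldC (ResidueField A₀) M 1 := by
  obtain ⟨d, h0, hI⟩ := dscv_inputs_one M hM
  exact dscvd_red_mem hϖ hℓ M 1 d h0 (kBar ℓ) (hI ℓ hℓM) x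

end Fermat.Agent.DS
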